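import Mathlib
import Fermat.Prelude.Def_GaloisRep_Adic

/-!
# Two-dimensional Galois representations as matrix-valued homomorphisms
-/

set_option autoImplicit false

noncomputable section

open scoped TensorProduct
open IsLocalRing Module

namespace FermatLib.Galois.Deform

/-- The absolute Galois group of `ℚ`. -/
abbrev GQ : Type := AlgebraicClosure ℚ ≃ₐ[ℚ] AlgebraicClosure ℚ

/-- Two by two matrices. -/
abbrev M2 (A : Type) : Type := Matrix (Fin 2) (Fin 2) A

section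

variable {A : Type} [CommRing A] [IsLocalRing A]

/-- Adic continuity of a matrix representation. -/
def MatCont (M : GQ →* M2 A) : Prop :=
  ∀ n : ℕ, ∃ L : IntermediateField ℚ (AlgebraicClosure ℚ), FiniteDimensional ℚ L ∧
    ∀ σ : GQ, (∀ x ∈ L, σ x = x) → ∀ i j, (M σ - 1) i j ∈ maximalIdeal A ^ n

/-- The representation on `A²` of a matrix representation. -/
def toAdic (M : GQ →* M2 A) (hM : MatCont M) : GaloisRepAdic A where
  V := Fin 2 → A
  finrank_eq := by simp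
  ρ := (Matrix.toLinAlgEquiv' : M2 A ≃ₐ[A] _).toMonoidHom.comp M
  isAdicContinuous := by
    intro n
    obtain ⟨L, hL, h⟩ := hM n
    refine ⟨L, hL, fun σ hσ v => ?_⟩
    have hv : ((Matrix.toLinAlgEquiv' : M2 A ≃ₐ[A] _).toMonoidHom.comp M) σ v - v =
        ∑ i, ((M σ - 1).mulVec v i) • (Pi.single i 1 : Fin 2 → A) := by
      rw [← pi_eq_sum_univ' ((M σ - 1).mulVec v)]
      show Matrix.toLinAlgEquiv' (M σ) v - v = _
      rw [Matrix.toLinAlgEquiv'_apply, Matrix.sub_mulVec, Matrix.one_mulVec]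
    rw [hv]
    refine Submodule.sum_mem _ fun i _ => Submodule.smul_mem_smul ?_ Submodule.mem_top
    simp only [Matrix.mulVec, dotProduct]
    exact Ideal.sum_mem _ fun j _ => Ideal.mul_mem_right _ _ (h σ hσ i j)

@[simp]
theorem toAdic_rho (M : GQ →* M2 A) (hM : MatCont M) (σ : GQ) :
    (toAdic M hM).ρ σ = Matrix.toLinAlgEquiv' (M σ) := rfl

/-- The standard basis of the representation space of `toAdic`. -/
def stdBasis (M : GQ →* M2 A) (hM : MatCont M) : Basis (Fin 2) A (toAdic M hM).V :=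
  Pi.basisFun A (Fin 2)

theorem toMatrix_toAdic (M : GQ →* M2 A) (hM : MatCont M) (σ : GQ) :
    LinearMap.toMatrix (stdBasis M hM) (stdBasis M hM) ((toAdic M hM).ρ σ) = M σ := by
  show LinearMap.toMatrix (Pi.basisFun A (Fin 2)) (Pi.basisFun A (Fin 2))
    (Matrix.toLinAlgEquiv' (M σ)) = M σ
  rw [LinearMap.toMatrix_eq_toMatrix']
  exact LinearMap.toMatrix'_toLin' (M σ)

/-- Two representations having the same matrices in some bases are equivalent. -/
theorem isEquiv_of_toMatrix_eq {ρ₁ ρ₂ : GaloisRepAdic A} (b₁ : Basis (Fin 2) A ρ₁.V)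
    (b₂ : Basis (Fin 2) A ρ₂.V)
    (h : ∀ σ, LinearMap.toMatrix b₁ b₁ (ρ₁.ρ σ) = LinearMap.toMatrix b₂ b₂ (ρ₂.ρ σ)) :
    ρ₁.IsEquiv ρ₂ := by
  refine ⟨⟨b₁.equiv b₂ (Equiv.refl _), fun σ x => ?_⟩⟩
  have key : (b₁.equiv b₂ (Equiv.refl _)).toLinearMap ∘ₗ ρ₁.ρ σ =
      ρ₂.ρ σ ∘ₗ (b₁.equiv b₂ (Equiv.refl _)).toLinearMap := by
    refine b₁.ext fun j => ?_
    simp only [LinearMap.comp_apply, LinearEquiv.coe_coe, Basis.equiv_apply, Equiv.refl_apply]
    conv_lhs => rw [← b₁.sum_repr (ρ₁.ρ σ (b₁ j))]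
    conv_rhs => rw [← b₂.sum_repr (ρ₂.ρ σ (b₂ j))]
    simp only [map_sum, map_smul, Basis.equiv_apply, Equiv.refl_apply]
    refine Finset.sum_congr rfl fun i _ => ?_
    have := congr_fun (congr_fun (h σ) i) j
    rw [LinearMap.toMatrix_apply, LinearMap.toMatrix_apply] at this
    rw [this]
  exact LinearMap.congr_fun key x

/-- The matrices of a representation in a basis. -/
def matOf (ρ : GaloisRepAdic A) (b : Basis (Fin 2) A ρ.V) : GQ →* M2 A :=
  (LinearMap.toMatrixAlgEquiv b).toMonoidHom.comp ρ.ρ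

@[simp]
theorem matOf_apply (ρ : GaloisRepAdic A) (b : Basis (Fin 2) A ρ.V) (σ : GQ) :
    matOf ρ b σ = LinearMap.toMatrix b b (ρ.ρ σ) := rfl

theorem matCont_matOf (ρ : GaloisRepAdic A) (b : Basis (Fin 2) A ρ.V) :
    MatCont (matOf ρ b) := by
  intro n
  obtain ⟨L, hL, h⟩ := ρ.isAdicContinuous n
  refine ⟨L, hL, fun σ hσ i j => ?_⟩
  have key : ∀ w ∈ (maximalIdeal A ^ n) • (⊤ : Submodule A ρ.V),
      b.repr w i ∈ maximalIdeal A ^ n := by
    intro w hw
    refine Submodule.smul_induction_on (p := fun w => b.repr w i ∈ maximalIdeal A ^ n) hw ?_ ?_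
    · intro a ha v _
      rw [map_smul, Finsupp.smul_apply, smul_eq_mul]
      exact Ideal.mul_mem_right _ _ ha
    · intro x y hx hy
      rw [map_add, Finsupp.add_apply]
      exact Ideal.add_mem _ hx hy
  have := key _ (h σ hσ (b j))
  rw [map_sub, Finsupp.sub_apply] at this
  rw [Matrix.sub_apply, matOf_apply, LinearMap.toMatrix_apply]
  convert this using 2
  rw [Basis.repr_self, Matrix.one_apply, Finsupp.single_apply]
  simp [eq_comm]

theorem isEquiv_toAdic_matOf (ρ : GaloisRepAdic A) (b : Basis (Fin 2) A ρ.V) :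
    ρ.IsEquiv (toAdic (matOf ρ b) (matCont_matOf ρ b)) :=
  isEquiv_of_toMatrix_eq b (stdBasis (matOf ρ b) (matCont_matOf ρ b)) fun σ =>
    (toMatrix_toAdic (matOf ρ b) (matCont_matOf ρ b) σ).symm

/-- Conjugate matrix representations give equivalent representations. -/
theorem isEquiv_toAdic_of_conj {M M' : GQ →* M2 A} (hM : MatCont M) (hM' : MatCont M')
    (P : (M2 A)ˣ) (h : ∀ σ, (P : M2 A) * M σ = M' σ * P) :
    (toAdic M hM).IsEquiv (toAdic M' hM') := by
  let e : (Fin 2 → A) ≃ₗ[A] (Fin 2 → A) :=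
    LinearMap.GeneralLinearGroup.toLinearEquiv
      (Units.map (Matrix.toLinAlgEquiv' : M2 A ≃ₐ[A] _).toMonoidHom P)
  refine ⟨⟨e, fun σ x => ?_⟩⟩
  show Matrix.toLinAlgEquiv' (P : M2 A) (Matrix.toLinAlgEquiv' (M σ) x) =
    Matrix.toLinAlgEquiv' (M' σ) (Matrix.toLinAlgEquiv' (P : M2 A) x)
  rw [← LinearMap.comp_apply, ← LinearMap.comp_apply, ← Module.End.mul_eq_comp,
    ← Module.End.mul_eq_comp, ← map_mul, ← map_mul, h]

/-- Equivalent representations have the same trace. -/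
theorem trace_eq_of_isEquiv {ρ₁ ρ₂ : GaloisRepAdic A} (h : ρ₁.IsEquiv ρ₂) (σ : GQ) :
    ρ₁.trace σ = ρ₂.trace σ := by
  obtain ⟨e⟩ := h
  have hc : ρ₂.ρ σ = e.toLinearEquiv.conj (ρ₁.ρ σ) := by
    refine LinearMap.ext fun y => ?_
    rw [LinearEquiv.conj_apply_apply, e.map_apply, LinearEquiv.apply_symm_apply]
  rw [GaloisRepAdic.trace, GaloisRepAdic.trace, hc, LinearMap.trace_conj']

theorem trace_toAdic (M : GQ →* M2 A) (hM : MatCont M) (σ : GQ) :
    (toAdic M hM).trace σ = (M σ).trace := by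
  rw [GaloisRepAdic.trace, LinearMap.trace_eq_matrix_trace A (stdBasis M hM),
    toMatrix_toAdic]

theorem trace_eq_of_isEquiv_toAdic {M M' : GQ →* M2 A} {hM : MatCont M} {hM' : MatCont M'}
    (h : (toAdic M hM).IsEquiv (toAdic M' hM')) (σ : GQ) : (M σ).trace = (M' σ).trace := by
  rw [← trace_toAdic M hM, ← trace_toAdic M' hM', trace_eq_of_isEquiv h]

theorem isEquiv_toAdic_of_eq {M M' : GQ →* M2 A} (hM : MatCont M) (hM' : MatCont M')
    (h : ∀ σ, M σ = M' σ) : (toAdic M hM).IsEquiv (toAdic M' hM') :=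
  isEquiv_toAdic_of_conj hM hM' 1 fun σ => by simp [h]

/-- Conjugate a matrix representation by an invertible matrix. -/
def conjRep (P : (M2 A)ˣ) (M : GQ →* M2 A) : GQ →* M2 A where
  toFun σ := (P : M2 A) * M σ * ((P⁻¹ : (M2 A)ˣ) : M2 A)
  map_one' := by simp
  map_mul' σ τ := by
    rw [map_mul]
    simp only [mul_assoc, Units.inv_mul_cancel_left]

@[simp]
theorem conjRep_apply (P : (M2 A)ˣ) (M : GQ →* M2 A) (σ : GQ) :
    conjRep P M σ = (P : M2 A) * M σ * ((P⁻¹ : (M2 A)ˣ) : M2 A) := rfl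

theorem matCont_conjRep (P : (M2 A)ˣ) {M : GQ →* M2 A} (hM : MatCont M) :
    MatCont (conjRep P M) := by
  intro n
  obtain ⟨L, hL, h⟩ := hM n
  refine ⟨L, hL, fun σ hσ i j => ?_⟩
  have : conjRep P M σ - 1 = (P : M2 A) * (M σ - 1) * ((P⁻¹ : (M2 A)ˣ) : M2 A) := by
    rw [mul_sub, sub_mul, mul_one, Units.mul_inv, conjRep_apply]
  rw [this, Matrix.mul_apply]
  refine Ideal.sum_mem _ fun l _ => Ideal.mul_mem_right _ _ ?_
  rw [Matrix.mul_apply]
  exact Ideal.sum_mem _ fun m _ => Ideal.mul_mem_left _ _ (h σ hσ m l)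

theorem isEquiv_toAdic_conjRep (P : (M2 A)ˣ) {M : GQ →* M2 A} (hM : MatCont M) :
    (toAdic M hM).IsEquiv (toAdic (conjRep P M) (matCont_conjRep P hM)) :=
  isEquiv_toAdic_of_conj hM _ P fun σ => by
    rw [conjRep_apply, mul_assoc, Units.inv_mul, mul_one]

theorem trace_conjRep (P : (M2 A)ˣ) (M : GQ →* M2 A) (σ : GQ) :
    (conjRep P M σ).trace = (M σ).trace := by
  rw [conjRep_apply, Matrix.trace_mul_cycle, Units.inv_mul, one_mul]

end

section BaseChange

variable {A B : Type} [CommRing A] [CommRing B]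

/-- Push a matrix representation along a ring homomorphism. -/
def mapRep (φ : A →+* B) (M : GQ →* M2 A) : GQ →* M2 B :=
  (φ.mapMatrix : M2 A →+* M2 B).toMonoidHom.comp M

@[simp]
theorem mapRep_apply (φ : A →+* B) (M : GQ →* M2 A) (σ : GQ) :
    mapRep φ M σ = (M σ).map φ := rfl

theorem trace_mapRep (φ : A →+* B) (M : GQ →* M2 A) (σ : GQ) :
    (mapRep φ M σ).trace = φ (M σ).trace := by
  simp [Matrix.trace]

variable [IsLocalRing A] [IsLocalRing B]

theorem matCont_mapRep (φ : A →+* B) (hφ : IsLocalHom φ) {M : GQ →* M2 A} (hM : MatCont M) :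
    MatCont (mapRep φ M) := by
  intro n
  obtain ⟨L, hL, h⟩ := hM n
  refine ⟨L, hL, fun σ hσ i j => ?_⟩
  have hmap : (maximalIdeal A ^ n).map φ ≤ maximalIdeal B ^ n := by
    rw [Ideal.map_pow]
    exact Ideal.pow_right_mono (Ideal.map_le_iff_le_comap.mpr fun a ha =>
      Ideal.mem_comap.mpr (haveI := hφ; map_nonunit φ a ha)) n
  have := hmap (Ideal.mem_map_of_mem φ (h σ hσ i j))
  rw [Matrix.sub_apply, map_sub] at this
  rw [Matrix.sub_apply, mapRep_apply, Matrix.map_apply]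
  convert this using 2
  rw [Matrix.one_apply, Matrix.one_apply]
  split_ifs <;> simp

theorem isEquiv_baseChangeAlong_toAdic (φ : A →+* B) (hφ : IsLocalHom φ) (M : GQ →* M2 A)
    (hM : MatCont M) :
    ((toAdic M hM).baseChangeAlong φ hφ).IsEquiv
      (toAdic (mapRep φ M) (matCont_mapRep φ hφ hM)) := by
  letI : Algebra A B := φ.toAlgebra
  refine isEquiv_of_toMatrix_eq
    (Algebra.TensorProduct.basis B (stdBasis M hM)) (stdBasis _ _) fun σ => ?_
  show LinearMap.toMatrix _ _ (((toAdic M hM).ρ σ).baseChange B) = _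
  refine (LinearMap.toMatrix_baseChange B _ _ _).trans ?_
  rw [toMatrix_toAdic, toMatrix_toAdic]
  rfl

end BaseChange

section Residual

variable {k : Type} [Field k]

/-- Two residual representations having the same matrices in some bases are equivalent. -/
theorem residual_isEquiv_of_toMatrix_eq {ρ₁ ρ₂ : ResidualGaloisRep k}
    (b₁ : Basis (Fin 2) k ρ₁.V) (b₂ : Basis (Fin 2) k ρ₂.V)
    (h : ∀ σ, LinearMap.toMatrix b₁ b₁ (ρ₁.ρ σ) = LinearMap.toMatrix b₂ b₂ (ρ₂.ρ σ)) :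
    ρ₁.IsEquiv ρ₂ := by
  refine ⟨⟨b₁.equiv b₂ (Equiv.refl _), fun σ x => ?_⟩⟩
  have key : (b₁.equiv b₂ (Equiv.refl _)).toLinearMap ∘ₗ ρ₁.ρ σ =
      ρ₂.ρ σ ∘ₗ (b₁.equiv b₂ (Equiv.refl _)).toLinearMap := by
    refine b₁.ext fun j => ?_
    simp only [LinearMap.comp_apply, LinearEquiv.coe_coe, Basis.equiv_apply, Equiv.refl_apply]
    conv_lhs => rw [← b₁.sum_repr (ρ₁.ρ σ (b₁ j))]
    conv_rhs => rw [← b₂.sum_repr (ρ₂.ρ σ (b₂ j))]
    simp only [map_sum, map_smul, Basis.equiv_apply, Equiv.refl_apply]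
    refine Finset.sum_congr rfl fun i _ => ?_
    have := congr_fun (congr_fun (h σ) i) j
    rw [LinearMap.toMatrix_apply, LinearMap.toMatrix_apply] at this
    rw [this]
  exact LinearMap.congr_fun key x

end Residual

end FermatLib.Galois.Deform

end
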