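import Mathlib

/-!
# Carayol's lemma and "the trace determines the representation" in dimension two

Let `π : A →ₐ[𝒪] k` be an algebra map to the residue field of `𝒪`, and `M : G →* M₂(A)` a
representation whose reduction spans `M₂(k)`. If the kernel of `π` consists of nilpotent elements,
`M` is conjugate to a representation with entries in any subalgebra containing all its traces.
If `A` is local, `M` is determined up to conjugation by its traces.
-/

set_option autoImplicit false

noncomputable section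

open IsLocalRing Matrix

namespace FermatLib.Galois.Deform.Carayol

variable {𝒪 : Type} [CommRing 𝒪] [IsLocalRing 𝒪] {A : Type} [CommRing A] [Algebra 𝒪 A]
  {G : Type} [Monoid G] (π : A →ₐ[𝒪] ResidueField 𝒪)
  (ρ₀ : G →* Matrix (Fin 2) (Fin 2) (ResidueField 𝒪))
  (hspan : Submodule.span (ResidueField 𝒪) (Set.range ρ₀) = ⊤)

theorem pi_surjective : Function.Surjective π := fun c => by
  obtain ⟨c, rfl⟩ := IsLocalRing.residue_surjective c
  exact ⟨algebraMap 𝒪 A c, by rw [AlgHom.commutes, ResidueField.algebraMap_eq]⟩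

theorem toSubmodule_adjoin_range (M : G →* Matrix (Fin 2) (Fin 2) A) :
    (Algebra.adjoin 𝒪 (Set.range M)).toSubmodule = Submodule.span 𝒪 (Set.range M) := by
  rw [Algebra.adjoin_eq_span, ← MonoidHom.coe_mrange, Submonoid.closure_eq]

include hspan in
theorem exists_lift (M : G →* Matrix (Fin 2) (Fin 2) A) (hM : ∀ g, (M g).map π = ρ₀ g)
    (X : Matrix (Fin 2) (Fin 2) (ResidueField 𝒪)) :
    ∃ x ∈ Algebra.adjoin 𝒪 (Set.range M), x.map π = X := by
  have hX : X ∈ Submodule.span (ResidueField 𝒪) (Set.range ρ₀) := hspan ▸ Submodule.mem_top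
  induction hX using Submodule.span_induction with
  | mem X hX =>
    obtain ⟨g, rfl⟩ := hX
    exact ⟨M g, Algebra.subset_adjoin (Set.mem_range_self g), hM g⟩
  | zero => exact ⟨0, Subalgebra.zero_mem _, Matrix.map_zero _ (map_zero π)⟩
  | add X Y _ _ hX hY =>
    obtain ⟨x, hx, rfl⟩ := hX
    obtain ⟨y, hy, rfl⟩ := hY
    exact ⟨x + y, Subalgebra.add_mem _ hx hy, Matrix.map_add _ (map_add π) x y⟩
  | smul c X _ hX =>
    obtain ⟨x, hx, rfl⟩ := hX
    obtain ⟨c, rfl⟩ := IsLocalRing.residue_surjective c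
    refine ⟨c • x, Subalgebra.smul_mem _ hx c, ?_⟩
    ext i j
    rw [Matrix.map_apply, Matrix.smul_apply, Matrix.smul_apply, Matrix.map_apply, map_smul,
      Algebra.smul_def, ResidueField.algebraMap_eq, smul_eq_mul]

theorem trace_mem_of_mem_adjoin {M : G →* Matrix (Fin 2) (Fin 2) A} {B : Subalgebra 𝒪 A}
    (htr : ∀ g, (M g).trace ∈ B) {x : Matrix (Fin 2) (Fin 2) A}
    (hx : x ∈ Algebra.adjoin 𝒪 (Set.range M)) : x.trace ∈ B := by
  rw [← Subalgebra.mem_toSubmodule, toSubmodule_adjoin_range] at hx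
  induction hx using Submodule.span_induction with
  | mem x hx => obtain ⟨g, rfl⟩ := hx; exact htr g
  | zero => simp
  | add x y _ _ hx hy => rw [Matrix.trace_add]; exact Subalgebra.add_mem _ hx hy
  | smul c x _ hx => rw [Matrix.trace_smul]; exact Subalgebra.smul_mem _ hx c

theorem isNilpotent_fin_two {x : Matrix (Fin 2) (Fin 2) A}
    (hx : ∀ i j, IsNilpotent (x i j)) : IsNilpotent x := by
  have h2 : x * x = x.trace • x - x.det • (1 : Matrix (Fin 2) (Fin 2) A) := by
    ext i j
    fin_cases i <;> fin_cases j <;>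
      simp [Matrix.mul_apply, Fin.sum_univ_two, Matrix.det_fin_two, Matrix.trace] <;> ring
  have ht : IsNilpotent x.trace := by
    rw [Matrix.trace_fin_two]
    exact (Commute.all _ _).isNilpotent_add (hx 0 0) (hx 1 1)
  have hd : IsNilpotent x.det := by
    rw [Matrix.det_fin_two]
    exact (Commute.all _ _).isNilpotent_sub ((Commute.all _ _).isNilpotent_mul_right (hx 0 0))
      ((Commute.all _ _).isNilpotent_mul_right (hx 0 1))
  obtain ⟨n, hn⟩ := ht
  obtain ⟨m, hm⟩ := hd
  have h1 : IsNilpotent (x.trace • x) := ⟨n, by rw [smul_pow, hn, zero_smul]⟩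
  have h1' : IsNilpotent (x.det • (1 : Matrix (Fin 2) (Fin 2) A)) :=
    ⟨m, by rw [smul_pow, hm, zero_smul]⟩
  have : IsNilpotent (x * x) := by
    rw [h2]
    exact ((Commute.one_right _).smul_right _).isNilpotent_sub h1 h1'
  obtain ⟨l, hl⟩ := this
  exact ⟨2 * l, by rw [pow_mul, sq]; exact hl⟩

theorem isUnit_of_map_eq_one (hker : ∀ a, π a ≠ 0 → IsUnit a)
    {P : Matrix (Fin 2) (Fin 2) A} (hP : P.map π = 1) : IsUnit P := by
  rw [Matrix.isUnit_iff_isUnit_det]
  refine hker _ ?_
  rw [AlgHom.map_det, AlgHom.mapMatrix_apply, hP, Matrix.det_one]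
  exact one_ne_zero

theorem isUnit_of_pi_ne_zero (hnil : ∀ a, π a = 0 → IsNilpotent a) (a : A) (ha : π a ≠ 0) :
    IsUnit a := by
  obtain ⟨b, hb⟩ := pi_surjective π (π a)⁻¹
  have : IsNilpotent (a * b - 1) := hnil _ (by rw [map_sub, map_mul, hb, map_one,
    mul_inv_cancel₀ ha, sub_self])
  have h1 := this.isUnit_add_one
  rw [sub_add_cancel] at h1
  exact isUnit_of_mul_isUnit_left h1

include hspan in
/-- Carayol's lemma: a representation with nilpotent-kernel reduction spanning `M₂` is conjugate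
to one with entries in any subalgebra containing its traces. -/
theorem exists_conj_mem (hnil : ∀ a, π a = 0 → IsNilpotent a)
    (M : G →* Matrix (Fin 2) (Fin 2) A) (hM : ∀ g, (M g).map π = ρ₀ g)
    (B : Subalgebra 𝒪 A) (htr : ∀ g, (M g).trace ∈ B) :
    ∃ P : (Matrix (Fin 2) (Fin 2) A)ˣ, (P : Matrix (Fin 2) (Fin 2) A).map π = 1 ∧
      ∀ g i j, ((P : Matrix (Fin 2) (Fin 2) A) * M g *
        ((P⁻¹ : (Matrix (Fin 2) (Fin 2) A)ˣ) : Matrix (Fin 2) (Fin 2) A)) i j ∈ B := by
  set E := Algebra.adjoin 𝒪 (Set.range M)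
  let mp : Matrix (Fin 2) (Fin 2) A →+* Matrix (Fin 2) (Fin 2) (ResidueField 𝒪) :=
    (π : A →+* ResidueField 𝒪).mapMatrix
  let f : E →+* Matrix (Fin 2) (Fin 2) (ResidueField 𝒪) := mp.comp E.val.toRingHom
  have hfnil : ∀ x ∈ RingHom.ker f, IsNilpotent x := by
    intro x hx
    obtain ⟨n, hn⟩ := isNilpotent_fin_two (x := (x : Matrix (Fin 2) (Fin 2) A))
      fun i j => hnil _ (congr_fun (congr_fun hx i) j)
    exact ⟨n, Subtype.ext (by simpa using hn)⟩
  obtain ⟨x0, hx0, hx0'⟩ := exists_lift π ρ₀ hspan M hM (Matrix.single 0 0 1)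
  obtain ⟨⟨e, heE⟩, he, hfe⟩ := exists_isIdempotentElem_eq_of_ker_isNilpotent f hfnil
    (Matrix.single 0 0 1) ⟨⟨x0, hx0⟩, hx0'⟩ (by simp [IsIdempotentElem])
  have hee : e * e = e := congr_arg Subtype.val he
  have hme : mp e = Matrix.single 0 0 1 := hfe
  obtain ⟨g, hgE, hg⟩ := exists_lift π ρ₀ hspan M hM (Matrix.single 1 0 1)
  obtain ⟨h, hhE, hh⟩ := exists_lift π ρ₀ hspan M hM (Matrix.single 0 1 1)
  replace hg : mp g = Matrix.single 1 0 1 := hg
  replace hh : mp h = Matrix.single 0 1 1 := hh
  have h1eE : 1 - e ∈ E := Subalgebra.sub_mem _ (Subalgebra.one_mem _) heE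
  set g' := (1 - e) * g * e with hg'def
  set h' := e * h * (1 - e) with hh'def
  have hg'E : g' ∈ E := Subalgebra.mul_mem _ (Subalgebra.mul_mem _ h1eE hgE) heE
  have hh'E : h' ∈ E := Subalgebra.mul_mem _ (Subalgebra.mul_mem _ heE hhE) h1eE
  have hmg : mp g' = Matrix.single 1 0 1 := by
    simp only [hg'def, map_mul, map_sub, map_one, hme, hg]
    ext i j; fin_cases i <;> fin_cases j <;> simp
  have hmh : mp h' = Matrix.single 0 1 1 := by
    simp only [hh'def, map_mul, map_sub, map_one, hme, hh]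
    ext i j; fin_cases i <;> fin_cases j <;> simp
  set Q := e * Matrix.single 0 0 1 + g' * Matrix.single 0 1 1 with hQdef
  have hs : ∀ i j : Fin 2, mp (Matrix.single i j 1) = Matrix.single i j 1 := fun i j => by
    ext a b; simp [mp, Matrix.single_apply, apply_ite]
  have hmQ : Q.map π = 1 := by
    show mp Q = 1
    simp only [hQdef, map_add, map_mul, hme, hmg, hs]
    ext i j; fin_cases i <;> fin_cases j <;> simp
  obtain ⟨Q', hQ'⟩ := isUnit_of_map_eq_one π (isUnit_of_pi_ne_zero π hnil) hmQ
  refine ⟨Q'⁻¹, ?_, ?_⟩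
  · have := congr_arg mp Q'.inv_mul
    rw [map_mul, map_one, hQ'] at this
    rw [show (Q : Matrix (Fin 2) (Fin 2) A).map π = mp Q from rfl] at hmQ
    rw [hmQ, mul_one] at this
    exact this
  rw [inv_inv, hQ']
  set R := ((Q'⁻¹ : (Matrix (Fin 2) (Fin 2) A)ˣ) : Matrix (Fin 2) (Fin 2) A)
  have hRQ : R * Q = 1 := by rw [← hQ']; exact Q'.inv_mul
  have hQR : Q * R = 1 := by rw [← hQ']; exact Q'.mul_inv
  have he0 : e * (1 - e) = 0 := by rw [mul_sub, mul_one, hee, sub_self]
  have he1 : (1 - e) * e = 0 := by rw [sub_mul, one_mul, hee, sub_self]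
  have heg : e * g' = 0 := by rw [hg'def, ← mul_assoc, ← mul_assoc, he0, zero_mul, zero_mul]
  have hge : g' * e = g' := by rw [hg'def, mul_assoc, hee]
  have hgg : g' * g' = 0 := by
    rw [show g' * g' = g' * e * g' by rw [hge], mul_assoc, heg, mul_zero]
  have heh : e * h' = h' := by rw [hh'def, ← mul_assoc, ← mul_assoc, hee]
  have hhe : h' * (1 - e) = h' := by
    rw [hh'def, mul_assoc, mul_sub, mul_one, he1, sub_zero]
  clear_value g' h' Q
  have heQ : R * e * Q = Matrix.single 0 0 1 := by
    have : e * Q = Q * Matrix.single 0 0 1 := by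
      rw [hQdef, mul_add, add_mul, ← mul_assoc, ← mul_assoc, hee, heg, zero_mul, add_zero,
        mul_assoc, mul_assoc]
      simp
    rw [mul_assoc, this, ← mul_assoc, hRQ, one_mul]
  have hgQ : R * g' * Q = Matrix.single 1 0 1 := by
    have : g' * Q = Q * Matrix.single 1 0 1 := by
      rw [hQdef, mul_add, add_mul, ← mul_assoc, ← mul_assoc, hge, hgg, zero_mul, add_zero,
        mul_assoc, mul_assoc, Matrix.single_mul_single_same,
        Matrix.single_mul_single_of_ne (h := by decide), mul_zero, zero_add, mul_one]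
    rw [mul_assoc, this, ← mul_assoc, hRQ, one_mul]
  have hconj : ∀ x y, R * (x * y) * Q = (R * x * Q) * (R * y * Q) := fun x y => by
    simp only [mul_assoc]
    rw [← mul_assoc Q R, hQR, one_mul]
  have htrQ : ∀ x, (R * x * Q).trace = x.trace := fun x => by
    rw [Matrix.trace_mul_cycle, hQR, one_mul]
  obtain ⟨c, hc⟩ : ∃ c, R * h' * Q = Matrix.single 0 1 c := by
    refine ⟨(R * h' * Q) 0 1, ?_⟩
    have h1 : R * h' * Q = Matrix.single 0 0 1 * (R * h' * Q) := by
      rw [← heQ, ← hconj, heh]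
    have h2 : R * h' * Q = (R * h' * Q) * Matrix.single 1 1 1 := by
      conv_lhs => rw [← hhe, hconj]
      congr 1
      rw [mul_sub, sub_mul, mul_one, hRQ, heQ]
      ext i j; fin_cases i <;> fin_cases j <;> simp
    generalize R * h' * Q = z at h1 h2 ⊢
    ext i j
    fin_cases i <;> fin_cases j
    · rw [h2]; simp
    · simp
    · rw [h1]; simp
    · rw [h1]; simp
  have hB : ∀ x ∈ E, x.trace ∈ B := fun x hx => trace_mem_of_mem_adjoin htr hx
  have hcB : c ∈ B := by
    have := hB _ (Subalgebra.mul_mem _ hh'E hg'E)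
    rw [← htrQ, hconj, hc, hgQ] at this
    simpa [Matrix.trace_fin_two] using this
  obtain ⟨d, hd⟩ : ∃ d : B, (⟨c, hcB⟩ : B) * d = 1 := by
    have hpc : π (c - 1) = 0 := by
      have : mp ((R * h' * Q) * (R * g' * Q)) = mp (Matrix.single 0 1 c * Matrix.single 1 0 1) := by
        rw [hc, hgQ]
      rw [← hconj, map_mul, map_mul, map_mul, hmh, hmg, show mp Q = 1 from hmQ, mul_one] at this
      have hR : mp R = 1 := by
        have h2 := congr_arg mp hRQ
        rwa [map_mul, show mp Q = 1 from hmQ, mul_one, map_one] at h2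
      rw [hR, one_mul] at this
      have := congr_fun (congr_fun this 0) 0
      simp [mp] at this
      rw [map_sub, map_one, ← this, sub_self]
    obtain ⟨n, hn⟩ := hnil _ hpc
    have : IsNilpotent ((⟨c, hcB⟩ : B) - 1) := ⟨n, Subtype.ext (by simpa using hn)⟩
    have h1 := this.isUnit_add_one
    rw [sub_add_cancel] at h1
    exact h1.exists_right_inv
  have key : ∀ x ∈ E, ∀ i j, (R * x * Q) i j ∈ B := by
    intro x hx
    have h00 := hB _ (Subalgebra.mul_mem _ hx heE)
    have h01 := hB _ (Subalgebra.mul_mem _ hx hg'E)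
    have h10 := hB _ (Subalgebra.mul_mem _ hx hh'E)
    have h11 := hB _ hx
    rw [← htrQ, hconj, heQ] at h00
    rw [← htrQ, hconj, hgQ] at h01
    rw [← htrQ, hconj, hc] at h10
    rw [← htrQ] at h11
    generalize R * x * Q = z at h00 h01 h10 h11 ⊢
    simp [Matrix.trace_fin_two] at h00 h01 h10 h11
    intro i j
    fin_cases i <;> fin_cases j
    · exact h00
    · exact h01
    · have hd' : c * (d : A) = 1 := congr_arg Subtype.val hd
      have := Subalgebra.mul_mem _ h10 d.2
      rw [mul_assoc, hd', mul_one] at this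
      exact this
    · simpa using Subalgebra.sub_mem _ h11 h00
  intro g i j
  exact key _ (Algebra.subset_adjoin (Set.mem_range_self g)) i j

section TraceDetermines

variable [IsLocalRing A]

theorem ker_eq_maximalIdeal : RingHom.ker π = maximalIdeal A :=
  IsLocalRing.eq_maximalIdeal (RingHom.ker_isMaximal_of_surjective π (pi_surjective π))

include π hspan in
theorem span_range_eq_top (M : G →* Matrix (Fin 2) (Fin 2) A) (hM : ∀ g, (M g).map π = ρ₀ g) :
    Submodule.span A (Set.range M) = ⊤ := by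
  refine top_le_iff.mp (Submodule.le_of_le_smul_of_le_jacobson_bot (I := maximalIdeal A)
    Module.Finite.fg_top (maximalIdeal_le_jacobson ⊥) ?_)
  intro x _
  obtain ⟨y, hy, hyx⟩ := exists_lift π ρ₀ hspan M hM (x.map π)
  rw [← add_sub_cancel y x]
  refine Submodule.add_mem_sup ?_ ?_
  · rw [← Subalgebra.mem_toSubmodule, toSubmodule_adjoin_range] at hy
    exact Submodule.span_le_restrictScalars 𝒪 A _ hy
  · rw [matrix_eq_sum_single (x - y)]
    refine Submodule.sum_mem _ fun i _ => Submodule.sum_mem _ fun j _ => ?_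
    rw [show Matrix.single i j ((x - y) i j) = ((x - y) i j) • Matrix.single i j (1 : A) by simp]
    refine Submodule.smul_mem_smul ?_ Submodule.mem_top
    rw [← ker_eq_maximalIdeal π]
    have h := congr_fun (congr_fun hyx i) j
    simp only [Matrix.map_apply] at h
    simp [RingHom.mem_ker, h]

include hspan in
/-- Over a local ring, a representation with absolutely irreducible reduction is determined up to
conjugation by its traces. -/
theorem exists_conj_of_trace_eq (M M' : G →* Matrix (Fin 2) (Fin 2) A)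
    (hM : ∀ g, (M g).map π = ρ₀ g) (hM' : ∀ g, (M' g).map π = ρ₀ g)
    (htr : ∀ g, (M g).trace = (M' g).trace) :
    ∃ P : (Matrix (Fin 2) (Fin 2) A)ˣ, (P : Matrix (Fin 2) (Fin 2) A).map π = 1 ∧
      ∀ g, (P : Matrix (Fin 2) (Fin 2) A) * M g = M' g * P := by
  let L := Finsupp.linearCombination A (M : G → Matrix (Fin 2) (Fin 2) A)
  let L' := Finsupp.linearCombination A (M' : G → Matrix (Fin 2) (Fin 2) A)
  have hL : LinearMap.range L = ⊤ := by
    rw [Finsupp.range_linearCombination]; exact span_range_eq_top π ρ₀ hspan M hM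
  obtain ⟨s, hs⟩ := L.exists_rightInverse_of_surjective hL
  have hs' : ∀ x, L (s x) = x := fun x => LinearMap.congr_fun hs x
  have htr' : ∀ (c : G →₀ A) (τ : G), (L' c * M' τ).trace = (L c * M τ).trace := by
    intro c τ
    simp only [L, L', Finsupp.linearCombination_apply, Finsupp.sum, Finset.sum_mul, smul_mul_assoc,
      ← map_mul, Matrix.trace_sum, Matrix.trace_smul, htr]
  have hker : ∀ c, L c = 0 → L' c = 0 := by
    intro c hc
    have h0 : ∀ z : Matrix (Fin 2) (Fin 2) A, (L' c * z).trace = 0 := by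
      intro z
      have hz : z ∈ Submodule.span A (Set.range M') :=
        span_range_eq_top π ρ₀ hspan M' hM' ▸ Submodule.mem_top
      induction hz using Submodule.span_induction with
      | mem z hz => obtain ⟨τ, rfl⟩ := hz; rw [htr', hc, zero_mul, Matrix.trace_zero]
      | zero => simp
      | add x y _ _ hx hy => rw [mul_add, Matrix.trace_add, hx, hy, add_zero]
      | smul a x _ hx => rw [mul_smul_comm, Matrix.trace_smul, hx, smul_zero]
    ext i j
    have := h0 (Matrix.single j i 1)
    fin_cases i <;> fin_cases j <;> simpa [Matrix.trace_fin_two] using this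
  let Ψ := L'.comp s
  have hΨ : ∀ c, Ψ (L c) = L' c := fun c => by
    rw [← sub_eq_zero, LinearMap.comp_apply, ← map_sub]
    exact hker _ (by rw [map_sub, hs', sub_self])
  have hmap : ∀ x, (Ψ x).map π = x.map π := fun x => by
    conv_rhs => rw [← hs' x]
    ext i j
    simp only [Ψ, L, L', LinearMap.comp_apply, Finsupp.linearCombination_apply, Finsupp.sum,
      Matrix.map_apply, Matrix.sum_apply, Matrix.smul_apply, smul_eq_mul, map_sum, map_mul]
    refine Finset.sum_congr rfl fun g _ => ?_
    rw [show π (M g i j) = π (M' g i j) from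
      (congr_fun (congr_fun (hM g) i) j).trans (congr_fun (congr_fun (hM' g) i) j).symm]
  have hdom : ∀ (K : G →* Matrix (Fin 2) (Fin 2) A) σ (c : G →₀ A),
      Finsupp.linearCombination A (K : G → Matrix (Fin 2) (Fin 2) A) (c.mapDomain (σ * ·)) =
        K σ * Finsupp.linearCombination A (K : G → Matrix (Fin 2) (Fin 2) A) c := by
    intro K σ c
    induction c using Finsupp.induction_linear with
    | zero => simp
    | add f g hf hg => rw [Finsupp.mapDomain_add, map_add, map_add, hf, hg, mul_add]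
    | single g a => simp [Finsupp.mapDomain_single]
  have hmulL : ∀ σ x, Ψ (M σ * x) = M' σ * Ψ x := by
    intro σ x
    conv_lhs => rw [← hs' x, ← hdom M σ (s x), hΨ]
    exact hdom M' σ (s x)
  let P : Matrix (Fin 2) (Fin 2) A := Matrix.of fun a j => Ψ (Matrix.single j 0 1) a 0
  have hPres : P.map π = 1 := by
    ext a j
    have := congr_fun (congr_fun (hmap (Matrix.single j 0 1)) a) 0
    simp only [Matrix.map_apply] at this
    show π (Ψ (Matrix.single j 0 1) a 0) = _
    rw [this]
    fin_cases a <;> fin_cases j <;> simp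
  have hker' : ∀ a, π a ≠ 0 → IsUnit a := fun a ha => by
    by_contra h
    refine ha (RingHom.mem_ker.mp ?_)
    rw [ker_eq_maximalIdeal π]
    exact h
  obtain ⟨P', hP'⟩ := isUnit_of_map_eq_one π hker' hPres
  refine ⟨P', hP' ▸ hPres, fun σ => ?_⟩
  rw [hP']
  ext a j
  have hsum : M σ * Matrix.single j 0 1 = ∑ i, M σ i j • Matrix.single i 0 (1 : A) := by
    ext x y
    fin_cases x <;> fin_cases y <;> fin_cases j <;> simp [Fin.sum_univ_two]
  have h2 : (M' σ * Ψ (Matrix.single j 0 1)) a 0 = (Ψ (M σ * Matrix.single j 0 1)) a 0 := by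
    rw [hmulL]
  rw [hsum, map_sum, Matrix.sum_apply] at h2
  simp only [map_smul, Matrix.smul_apply, smul_eq_mul] at h2
  rw [Matrix.mul_apply, Matrix.mul_apply]
  simp only [P, Matrix.of_apply]
  rw [Matrix.mul_apply] at h2
  rw [h2]
  exact Finset.sum_congr rfl fun i _ => mul_comm _ _

end TraceDetermines

end FermatLib.Galois.Deform.Carayol

end
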