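import Mathlib
import Fermat.Prelude.Def_GaloisRep_DeformationCondition

/-!
# Local `𝒪`-algebras with residue field that of `𝒪`

Such an algebra is the same as a local `𝒪`-algebra admitting an algebra map `π` to the residue
field of `𝒪`; this map is unique and every algebra map between two of them is local.
-/

set_option autoImplicit false

noncomputable section

open IsLocalRing GaloisRep

namespace FermatLib.Galois.Deform

variable {𝒪 : Type} [CommRing 𝒪] [IsLocalRing 𝒪] {A : Type} [CommRing A] [Algebra 𝒪 A]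

theorem res_surjective (π : A →ₐ[𝒪] ResidueField 𝒪) : Function.Surjective π := fun c => by
  obtain ⟨c, rfl⟩ := IsLocalRing.residue_surjective c
  exact ⟨algebraMap 𝒪 A c, by rw [AlgHom.commutes, ResidueField.algebraMap_eq]⟩

theorem res_eq_zero_iff [IsLocalRing A] (π : A →ₐ[𝒪] ResidueField 𝒪) (a : A) :
    π a = 0 ↔ a ∈ maximalIdeal A := by
  rw [← RingHom.mem_ker,
    IsLocalRing.eq_maximalIdeal (RingHom.ker_isMaximal_of_surjective π (res_surjective π))]

theorem res_unique [IsLocalRing A] (π π' : A →ₐ[𝒪] ResidueField 𝒪) : π = π' := by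
  refine AlgHom.ext fun a => ?_
  obtain ⟨c, hc⟩ := IsLocalRing.residue_surjective (π a)
  have h : π (a - algebraMap 𝒪 A c) = 0 := by
    rw [map_sub, AlgHom.commutes, ResidueField.algebraMap_eq, hc, sub_self]
  have h' := (res_eq_zero_iff π' _).mpr ((res_eq_zero_iff π _).mp h)
  rw [map_sub, AlgHom.commutes, ResidueField.algebraMap_eq, hc, sub_eq_zero] at h'
  exact h'.symm

theorem isLocalHom_of_res {B : Type} [CommRing B] [Algebra 𝒪 B] [IsLocalRing A] [IsLocalRing B]
    (πB : B →ₐ[𝒪] ResidueField 𝒪) (φ : A →ₐ[𝒪] B) : IsLocalHom (φ : A →+* B) := by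
  refine ⟨fun a ha => ?_⟩
  by_contra h
  have h1 : πB (φ a) = 0 := ((res_eq_zero_iff (πB.comp φ) a).mpr h :)
  exact (res_eq_zero_iff πB _).mp h1 ha

theorem isLocalHom_algebraMap_of_res (π : A →ₐ[𝒪] ResidueField 𝒪) :
    IsLocalHom (algebraMap 𝒪 A) := ⟨fun c hc => by
  have : IsUnit (π (algebraMap 𝒪 A c)) := hc.map π
  rw [AlgHom.commutes, ResidueField.algebraMap_eq] at this
  exact IsUnit.of_map (residue 𝒪) _ this⟩

theorem residue_surjective_of_res [IsLocalRing A] (π : A →ₐ[𝒪] ResidueField 𝒪) :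
    Function.Surjective (residue A ∘ algebraMap 𝒪 A) := fun x => by
  obtain ⟨a, rfl⟩ := IsLocalRing.residue_surjective x
  obtain ⟨c, hc⟩ := IsLocalRing.residue_surjective (π a)
  refine ⟨c, ?_⟩
  rw [Function.comp_apply, ← sub_eq_zero, ← map_sub, IsLocalRing.residue_eq_zero_iff,
    ← res_eq_zero_iff π, map_sub, AlgHom.commutes, ResidueField.algebraMap_eq, hc, sub_self]

theorem isTestAlgebra_of_res [IsLocalRing A] (π : A →ₐ[𝒪] ResidueField 𝒪)
    (hA : IsArtinianRing A) : IsArtinianTestAlgebra 𝒪 A :=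
  ⟨isLocalHom_algebraMap_of_res π, residue_surjective_of_res π, hA⟩

theorem exists_res [IsLocalRing A] (hloc : IsLocalHom (algebraMap 𝒪 A))
    (hsurj : Function.Surjective (residue A ∘ algebraMap 𝒪 A)) :
    Nonempty (A →ₐ[𝒪] ResidueField 𝒪) := by
  haveI := hloc
  let e : ResidueField 𝒪 ≃+* ResidueField A :=
    RingEquiv.ofBijective (ResidueField.map (algebraMap 𝒪 A))
      ⟨RingHom.injective _, fun x => by
        obtain ⟨c, hc⟩ := hsurj x
        exact ⟨residue 𝒪 c, by rw [ResidueField.map_residue]; exact hc⟩⟩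
  exact ⟨{ (e.symm : ResidueField A →+* ResidueField 𝒪).comp (residue A) with
    commutes' := fun c => e.symm_apply_eq.mpr (ResidueField.map_residue (algebraMap 𝒪 A) c).symm }⟩

theorem exists_res_of_test [IsLocalRing A] (h : IsArtinianTestAlgebra 𝒪 A) :
    Nonempty (A →ₐ[𝒪] ResidueField 𝒪) :=
  exists_res h.isLocalHom h.residue_surjective

theorem isUnit_of_res_ne_zero (π : A →ₐ[𝒪] ResidueField 𝒪)
    (hnil : ∀ a, π a = 0 → IsNilpotent a) (a : A) (ha : π a ≠ 0) : IsUnit a := by
  obtain ⟨b, hb⟩ := res_surjective π (π a)⁻¹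
  have : IsNilpotent (a * b - 1) := hnil _ (by rw [map_sub, map_mul, hb, map_one,
    mul_inv_cancel₀ ha, sub_self])
  have h1 := this.isUnit_add_one
  rw [sub_add_cancel] at h1
  exact isUnit_of_mul_isUnit_left h1

/-- An algebra with nilpotent kernel to the residue field is local. -/
theorem isLocalRing_of_res (π : A →ₐ[𝒪] ResidueField 𝒪)
    (hnil : ∀ a, π a = 0 → IsNilpotent a) : IsLocalRing A := by
  haveI : Nontrivial A := ⟨⟨0, 1, fun h => zero_ne_one (α := ResidueField 𝒪) (by
    simpa using congr_arg π h)⟩⟩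
  refine IsLocalRing.of_nonunits_add fun a b ha hb => ?_
  have key : ∀ x, x ∈ nonunits A ↔ π x = 0 := fun x =>
    ⟨fun hx => not_not.mp fun h => hx (isUnit_of_res_ne_zero π hnil x h),
      fun hx hu => (hu.map π).ne_zero hx⟩
  rw [key] at ha hb ⊢
  rw [map_add, ha, hb, add_zero]

theorem nilpotent_of_res_eq_zero [IsLocalRing A] (hA : IsArtinianRing A)
    (π : A →ₐ[𝒪] ResidueField 𝒪) (a : A) (ha : π a = 0) : IsNilpotent a := by
  obtain ⟨n, hn⟩ := (isArtinianRing_iff_isNilpotent_maximalIdeal A).mp hA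
  refine ⟨n, ?_⟩
  have := Ideal.pow_mem_pow ((res_eq_zero_iff π a).mp ha) n
  rw [hn] at this
  exact Ideal.mem_bot.mp this

theorem finite_of_res [IsLocalRing A] [Finite (ResidueField 𝒪)] (hA : IsArtinianRing A)
    (π : A →ₐ[𝒪] ResidueField 𝒪) : Finite A := by
  haveI := hA
  haveI : Finite (ResidueField A) := by
    refine Finite.of_surjective (fun c : ResidueField 𝒪 =>
      residue A ((res_surjective π) c).choose) fun x => ?_
    obtain ⟨a, rfl⟩ := IsLocalRing.residue_surjective x
    refine ⟨π a, ?_⟩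
    rw [← sub_eq_zero, ← map_sub, IsLocalRing.residue_eq_zero_iff, ← res_eq_zero_iff π, map_sub,
      (res_surjective π (π a)).choose_spec, sub_self]
  obtain ⟨n, hn⟩ := (isArtinianRing_iff_isNilpotent_maximalIdeal A).mp hA
  haveI : Finite (A ⧸ (⊥ : Ideal A)) :=
    IsLocalRing.finite_quotient_iff.mpr ⟨n, by rw [hn]; exact le_rfl⟩
  exact Finite.of_equiv _ (RingEquiv.quotientBot A).toEquiv

end FermatLib.Galois.Deform

end
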