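import Mathlib
import Fermat.Prelude.Def_GaloisRep_DeformationCondition
import Fermat.Agent.Galois.Deform.Mat
import Fermat.Agent.Galois.Deform.TestAlg
import Fermat.Agent.Galois.Deform.Carayol

/-!
# Admissible trace ideals

An ideal `I` of `𝒪[X_σ : σ ∈ G_ℚ]` is admissible if the quotient is an Artinian test algebra
carrying a deformation whose traces are the classes of the variables.
-/

set_option autoImplicit false

noncomputable section

open IsLocalRing GaloisRep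

namespace FermatLib.Galois.Deform

variable {𝒪 : Type} [CommRing 𝒪] [IsLocalRing 𝒪]

/-- A predicate on Galois representations over all local `𝒪`-algebras. -/
abbrev Cond (𝒪 : Type) [CommRing 𝒪] : Type 1 :=
  ∀ ⦃A : Type⦄ [CommRing A] [IsLocalRing A] [Algebra 𝒪 A], GaloisRepAdic A → Prop

variable (𝒟 : Cond 𝒪)

/-- The matrix representation `M` satisfies the condition `𝒟`. -/
def IsDef {A : Type} [CommRing A] [IsLocalRing A] [Algebra 𝒪 A] (M : GQ →* M2 A) : Prop :=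
  ∃ hc : MatCont M, 𝒟 (toAdic M hc)

section Basic

variable {A : Type} [CommRing A] [IsLocalRing A]

theorem exists_level (hA : IsArtinianRing A) {M : GQ →* M2 A} (hc : MatCont M) :
    ∃ L : IntermediateField ℚ (AlgebraicClosure ℚ), FiniteDimensional ℚ L ∧
      ∀ σ : GQ, (∀ x ∈ L, σ x = x) → M σ = 1 := by
  obtain ⟨n, hn⟩ := (isArtinianRing_iff_isNilpotent_maximalIdeal A).mp hA
  obtain ⟨L, hL, h⟩ := hc n
  refine ⟨L, hL, fun σ hσ => ?_⟩
  ext i j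
  have := h σ hσ i j
  rw [hn] at this
  rw [Matrix.sub_apply, Ideal.zero_eq_bot, Ideal.mem_bot, sub_eq_zero] at this
  exact this

theorem matCont_of_level {M : GQ →* M2 A} {L : IntermediateField ℚ (AlgebraicClosure ℚ)}
    (hL : FiniteDimensional ℚ L) (h : ∀ σ : GQ, (∀ x ∈ L, σ x = x) → M σ = 1) : MatCont M :=
  fun n => ⟨L, hL, fun σ hσ i j => by rw [h σ hσ, sub_self]; exact Submodule.zero_mem _⟩

variable [Algebra 𝒪 A] {𝒟} (h𝒟 : IsDeformationCondition 𝒪 𝒟)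
  (hA : IsArtinianTestAlgebra 𝒪 A)

include h𝒟 hA in
theorem IsDef.conj {M : GQ →* M2 A} (h : IsDef 𝒟 M) (P : (M2 A)ˣ) :
    IsDef 𝒟 (conjRep P M) :=
  ⟨matCont_conjRep P h.choose,
    h𝒟.of_isEquiv hA (isEquiv_toAdic_conjRep P h.choose) h.choose_spec⟩

variable {B : Type} [CommRing B] [IsLocalRing B] [Algebra 𝒪 B]
  (hB : IsArtinianTestAlgebra 𝒪 B)

include h𝒟 hA hB in
theorem IsDef.map {M : GQ →* M2 A} (h : IsDef 𝒟 M) (φ : A →ₐ[𝒪] B) :
    IsDef 𝒟 (mapRep (φ : A →+* B) M) := by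
  obtain ⟨π⟩ := exists_res_of_test hB
  have hφ := isLocalHom_of_res π φ
  obtain ⟨hc, hD⟩ := h
  exact ⟨matCont_mapRep _ hφ hc, h𝒟.of_isEquiv hB (isEquiv_baseChangeAlong_toAdic _ hφ M hc)
    (h𝒟.baseChangeAlong hA hB φ hφ hD)⟩

include h𝒟 hA hB in
theorem IsDef.of_map_injective {M : GQ →* M2 A} (φ : A →ₐ[𝒪] B) (hinj : Function.Injective φ)
    (h : IsDef 𝒟 (mapRep (φ : A →+* B) M)) : IsDef 𝒟 M := by
  obtain ⟨π⟩ := exists_res_of_test hB
  have hφ := isLocalHom_of_res π φ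
  obtain ⟨hc, hD⟩ := h
  obtain ⟨L, hL, hlev⟩ := exists_level hB.isArtinian hc
  have hcM : MatCont M := matCont_of_level hL fun σ hσ => by
    ext i j
    refine hinj ?_
    have := congr_fun (congr_fun (hlev σ hσ) i) j
    rw [mapRep_apply, Matrix.map_apply] at this
    refine Eq.trans this ?_
    rw [Matrix.one_apply, Matrix.one_apply]
    split_ifs <;> simp
  obtain ⟨e⟩ := isEquiv_baseChangeAlong_toAdic _ hφ M hcM
  exact ⟨hcM, h𝒟.of_baseChangeAlong_injective hA hB φ hφ hinj (h𝒟.of_isEquiv hB ⟨e.symm⟩ hD)⟩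

end Basic

/-- The polynomial algebra in the symbolic traces. -/
abbrev TrPoly (𝒪 : Type) [CommRing 𝒪] : Type := MvPolynomial GQ 𝒪

section TrHom

variable {A : Type} [CommRing A] [Algebra 𝒪 A]

/-- Evaluation of the symbolic traces at a representation. -/
def trHom (M : GQ →* M2 A) : TrPoly 𝒪 →ₐ[𝒪] A :=
  MvPolynomial.aeval fun σ => (M σ).trace

@[simp]
theorem trHom_X (M : GQ →* M2 A) (σ : GQ) :
    trHom (𝒪 := 𝒪) M (MvPolynomial.X σ) = (M σ).trace :=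
  MvPolynomial.aeval_X _ σ

theorem comp_trHom {B : Type} [CommRing B] [Algebra 𝒪 B] (φ : A →ₐ[𝒪] B) (M : GQ →* M2 A) :
    φ.comp (trHom M) = trHom (mapRep (φ : A →+* B) M) :=
  MvPolynomial.algHom_ext fun σ => by
    rw [AlgHom.comp_apply, trHom_X, trHom_X, trace_mapRep, RingHom.coe_coe]

end TrHom

variable (ρ₀ : GQ →* M2 (ResidueField 𝒪))

/-- Admissible ideals: kernels of trace evaluations of deformations. -/
def Adm (I : Ideal (TrPoly 𝒪)) : Prop :=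
  ∃ (_ : IsLocalRing (TrPoly 𝒪 ⧸ I)) (M : GQ →* M2 (TrPoly 𝒪 ⧸ I))
    (π : (TrPoly 𝒪 ⧸ I) →ₐ[𝒪] ResidueField 𝒪),
    IsArtinianRing (TrPoly 𝒪 ⧸ I) ∧ (∀ σ, (M σ).map π = ρ₀ σ) ∧ IsDef 𝒟 M ∧
      ∀ σ, (M σ).trace = Ideal.Quotient.mk I (MvPolynomial.X σ)

theorem res_comp_mk {I : Ideal (TrPoly 𝒪)} {M : GQ →* M2 (TrPoly 𝒪 ⧸ I)}
    {π : (TrPoly 𝒪 ⧸ I) →ₐ[𝒪] ResidueField 𝒪} (hπ : ∀ σ, (M σ).map π = ρ₀ σ)
    (htr : ∀ σ, (M σ).trace = Ideal.Quotient.mk I (MvPolynomial.X σ)) :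
    π.comp (Ideal.Quotient.mkₐ 𝒪 I) = trHom ρ₀ :=
  MvPolynomial.algHom_ext fun σ => by
    rw [AlgHom.comp_apply, Ideal.Quotient.mkₐ_eq_mk, trHom_X, ← htr, ← hπ]
    simp [Matrix.trace]

variable {𝒟 ρ₀}

theorem Adm.le_ker {I : Ideal (TrPoly 𝒪)} (h : Adm 𝒟 ρ₀ I) :
    I ≤ RingHom.ker (trHom (𝒪 := 𝒪) ρ₀) := by
  obtain ⟨_, M, π, -, hπ, -, htr⟩ := h
  intro x hx
  rw [RingHom.mem_ker, ← res_comp_mk ρ₀ hπ htr, AlgHom.comp_apply, Ideal.Quotient.mkₐ_eq_mk,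
    Ideal.Quotient.eq_zero_iff_mem.mpr hx, map_zero]

variable [Finite (ResidueField 𝒪)] (h𝒟 : IsDeformationCondition 𝒪 𝒟)

theorem Adm.finite {I : Ideal (TrPoly 𝒪)} (h : Adm 𝒟 ρ₀ I) : Finite (TrPoly 𝒪 ⧸ I) := by
  obtain ⟨_, M, π, hart, -, -, -⟩ := h
  exact finite_of_res hart π

section Generic

variable {A : Type} [CommRing A] [IsLocalRing A] [Algebra 𝒪 A]

include h𝒟 in
/-- A deformation with entries in the image of an injective map descends. -/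
theorem exists_descent {B : Type} [CommRing B] [Algebra 𝒪 B] (φ : B →ₐ[𝒪] A)
    (hinj : Function.Injective φ) (hA : IsArtinianRing A) (π : A →ₐ[𝒪] ResidueField 𝒪)
    (M : GQ →* M2 A) (hπ : ∀ σ, (M σ).map π = ρ₀ σ) (hM : IsDef 𝒟 M)
    (hmem : ∀ σ i j, ∃ c, φ c = M σ i j) :
    ∃ (_ : IsLocalRing B) (M₀ : GQ →* M2 B), IsArtinianRing B ∧
      (∀ σ, (M₀ σ).map (π.comp φ) = ρ₀ σ) ∧ IsDef 𝒟 M₀ ∧
      ∀ σ, φ (M₀ σ).trace = (M σ).trace := by
  choose c hc using hmem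
  let fM : M2 B →+* M2 A := (φ : B →+* A).mapMatrix
  have hinjM : Function.Injective fM :=
    fun X Y h => by ext i j; exact hinj (congr_fun (congr_fun h i) j)
  have hval : ∀ σ, fM (Matrix.of (c σ)) = M σ := fun σ => by ext i j; exact hc σ i j
  let M₀ : GQ →* M2 B :=
    { toFun := fun σ => Matrix.of (c σ)
      map_one' := hinjM (by rw [hval, map_one fM, map_one M])
      map_mul' := fun σ τ => hinjM (by rw [map_mul fM, hval, hval, hval, map_mul]) }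
  have hmap : mapRep (φ : B →+* A) M₀ = M := MonoidHom.ext fun σ => hval σ
  haveI : Finite A := finite_of_res hA π
  haveI : Finite B := Finite.of_injective φ hinj
  have hnil' : ∀ a, π.comp φ a = 0 → IsNilpotent a := fun a ha => by
    obtain ⟨n, hn⟩ := nilpotent_of_res_eq_zero hA π (φ a) ha
    exact ⟨n, hinj (by rw [map_pow, hn, map_zero])⟩
  haveI hloc : IsLocalRing B := isLocalRing_of_res (π.comp φ) hnil'
  have hart : IsArtinianRing B := inferInstance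
  refine ⟨hloc, M₀, hart, fun σ => ?_, ?_, fun σ => ?_⟩
  · rw [← hπ σ, ← hval σ]
    rfl
  · refine IsDef.of_map_injective h𝒟 (isTestAlgebra_of_res (π.comp φ) hart)
      (isTestAlgebra_of_res π hA) φ hinj ?_
    rw [hmap]
    exact hM
  · rw [← hmap, trace_mapRep]
    rfl

include h𝒟 in
/-- Deformations can be pushed along surjective maps. -/
theorem exists_push {B : Type} [CommRing B] [Algebra 𝒪 B] (q : A →ₐ[𝒪] B)
    (hq : Function.Surjective q) (hA : IsArtinianRing A) (π : A →ₐ[𝒪] ResidueField 𝒪)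
    (π' : B →ₐ[𝒪] ResidueField 𝒪) (hπq : π'.comp q = π)
    (M : GQ →* M2 A) (hπ : ∀ σ, (M σ).map π = ρ₀ σ) (hM : IsDef 𝒟 M) :
    ∃ (_ : IsLocalRing B) (M' : GQ →* M2 B), IsArtinianRing B ∧
      (∀ σ, (M' σ).map π' = ρ₀ σ) ∧ IsDef 𝒟 M' ∧
      ∀ σ, (M' σ).trace = q (M σ).trace := by
  haveI : Finite A := finite_of_res hA π
  haveI : Finite B := Finite.of_surjective q hq
  have hnil' : ∀ a, π' a = 0 → IsNilpotent a := fun a ha => by
    obtain ⟨b, rfl⟩ := hq a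
    exact (nilpotent_of_res_eq_zero hA π b (by rw [← hπq]; exact ha)).map q
  haveI hloc : IsLocalRing B := isLocalRing_of_res π' hnil'
  have hart : IsArtinianRing B := inferInstance
  refine ⟨hloc, mapRep (q : A →+* B) M, hart, fun σ => ?_,
    hM.map h𝒟 (isTestAlgebra_of_res π hA) (isTestAlgebra_of_res π' hart) q, fun σ => ?_⟩
  · rw [← hπ σ, ← hπq]
    rfl
  · rw [trace_mapRep]
    rfl

include h𝒟 in
/-- A deformation descends to the algebra generated by its traces. -/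
theorem adm_ker_trHom (hspan : Submodule.span (ResidueField 𝒪) (Set.range ρ₀) = ⊤)
    (hA : IsArtinianRing A) (π : A →ₐ[𝒪] ResidueField 𝒪) (M : GQ →* M2 A)
    (hπ : ∀ σ, (M σ).map π = ρ₀ σ) (hM : IsDef 𝒟 M) :
    Adm 𝒟 ρ₀ (RingHom.ker (trHom (𝒪 := 𝒪) M)) := by
  have hnil := nilpotent_of_res_eq_zero hA π
  obtain ⟨P, hP, hPB⟩ := Carayol.exists_conj_mem π ρ₀ hspan hnil M hπ (trHom (𝒪 := 𝒪) M).range
    fun σ => ⟨MvPolynomial.X σ, trHom_X M σ⟩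
  have hinj := Ideal.kerLiftAlg_injective (trHom (𝒪 := 𝒪) M)
  have hπc : ∀ σ, (conjRep P M σ).map π = ρ₀ σ := fun σ => by
    have hu : ((P⁻¹ : (M2 A)ˣ) : M2 A).map π = 1 := by
      have := congr_arg (fun X : M2 A => X.map π) P.inv_mul
      simp only [Matrix.map_mul, hP, mul_one] at this
      rw [this]; simp
    rw [conjRep_apply, Matrix.map_mul, Matrix.map_mul, hP, hu, hπ, one_mul, mul_one]
  obtain ⟨hloc, M₀, hart, h1, h2, h3⟩ := exists_descent h𝒟 (Ideal.kerLiftAlg (trHom (𝒪 := 𝒪) M))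
    hinj hA π (conjRep P M) hπc (hM.conj h𝒟 (isTestAlgebra_of_res π hA) P) fun σ i j => by
      obtain ⟨c, hc⟩ := hPB σ i j
      exact ⟨Ideal.Quotient.mk _ c, by rw [Ideal.kerLiftAlg_mk]; exact hc⟩
  refine ⟨hloc, M₀, _, hart, h1, h2, fun σ => hinj ?_⟩
  rw [h3, trace_conjRep, Ideal.kerLiftAlg_mk, trHom_X]

include h𝒟 in
/-- The joint trace ideal of two deformations is admissible. -/
theorem adm_ker_inf_ker (hspan : Submodule.span (ResidueField 𝒪) (Set.range ρ₀) = ⊤)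
    {B : Type} [CommRing B] [IsLocalRing B] [Algebra 𝒪 B]
    (hartA : IsArtinianRing A) (πA : A →ₐ[𝒪] ResidueField 𝒪) (MA : GQ →* M2 A)
    (hπA : ∀ σ, (MA σ).map πA = ρ₀ σ) (hDA : IsDef 𝒟 MA)
    (hartB : IsArtinianRing B) (πB : B →ₐ[𝒪] ResidueField 𝒪) (MB : GQ →* M2 B)
    (hπB : ∀ σ, (MB σ).map πB = ρ₀ σ) (hDB : IsDef 𝒟 MB) :
    Adm 𝒟 ρ₀ (RingHom.ker (trHom (𝒪 := 𝒪) MA) ⊓ RingHom.ker (trHom (𝒪 := 𝒪) MB)) := by
  haveI := finite_of_res hartA πA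
  haveI := finite_of_res hartB πB
  let W : Subalgebra 𝒪 (A × B) :=
    AlgHom.equalizer (πA.comp (AlgHom.fst 𝒪 _ _)) (πB.comp (AlgHom.snd 𝒪 _ _))
  let pA : W →ₐ[𝒪] A := (AlgHom.fst 𝒪 _ _).comp W.val
  let pB : W →ₐ[𝒪] B := (AlgHom.snd 𝒪 _ _).comp W.val
  have hcomm : πA.comp pA = πB.comp pB := AlgHom.ext fun x => x.2
  let π : W →ₐ[𝒪] ResidueField 𝒪 := πA.comp pA
  have hnil : ∀ a, π a = 0 → IsNilpotent a := fun a ha => by
    obtain ⟨n, hn⟩ := nilpotent_of_res_eq_zero hartA πA (pA a) ha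
    obtain ⟨m, hm⟩ := nilpotent_of_res_eq_zero hartB πB (pB a)
      ((AlgHom.congr_fun hcomm a).symm.trans ha)
    have hn' : (a : A × B).1 ^ n = 0 := hn
    have hm' : (a : A × B).2 ^ m = 0 := hm
    refine ⟨n + m, Subtype.ext (Prod.ext ?_ ?_)⟩
    · simp [pow_add, hn']
    · simp [pow_add, hm']
  haveI : Finite W := Subtype.finite
  haveI hloc : IsLocalRing W := isLocalRing_of_res (A := W) π hnil
  have hart : IsArtinianRing W := inferInstance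
  have hW := isTestAlgebra_of_res π hart
  have hmemW : ∀ σ i j, (MA σ i j, MB σ i j) ∈ W := fun σ i j => by
    show πA (MA σ i j) = πB (MB σ i j)
    rw [← Matrix.map_apply (f := πA), ← Matrix.map_apply (f := πB), hπA, hπB]
  let fA : M2 W →+* M2 A := (pA : W →+* A).mapMatrix
  let fB : M2 W →+* M2 B := (pB : W →+* B).mapMatrix
  have hinjM : ∀ X Y : M2 W, fA X = fA Y → fB X = fB Y → X = Y := fun X Y h1 h2 =>
    Matrix.ext fun i j => Subtype.ext (Prod.ext (congr_fun (congr_fun h1 i) j)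
      (congr_fun (congr_fun h2 i) j))
  let Mf : GQ → M2 W := fun σ => Matrix.of fun i j => (⟨(MA σ i j, MB σ i j), hmemW σ i j⟩ : W)
  have hfA : ∀ σ, fA (Mf σ) = MA σ := fun σ => rfl
  have hfB : ∀ σ, fB (Mf σ) = MB σ := fun σ => rfl
  let M : GQ →* M2 W :=
    { toFun := Mf
      map_one' := hinjM _ _ (by rw [hfA, map_one fA, map_one MA])
        (by rw [hfB, map_one fB, map_one MB])
      map_mul' := fun σ τ => hinjM _ _ (by rw [map_mul fA, hfA, hfA, hfA, map_mul])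
        (by rw [map_mul fB, hfB, hfB, hfB, map_mul]) }
  have hMA : mapRep (pA : W →+* A) M = MA := MonoidHom.ext fun σ => hfA σ
  have hMB : mapRep (pB : W →+* B) M = MB := MonoidHom.ext fun σ => hfB σ
  have hker : RingHom.ker (trHom (𝒪 := 𝒪) M) =
      RingHom.ker (trHom (𝒪 := 𝒪) MA) ⊓ RingHom.ker (trHom (𝒪 := 𝒪) MB) := by
    ext x
    simp only [RingHom.mem_ker, Ideal.mem_inf]
    rw [← hMA, ← hMB, ← comp_trHom, ← comp_trHom]
    refine ⟨fun h => ⟨?_, ?_⟩, fun h => Subtype.ext (Prod.ext h.1 h.2)⟩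
    · rw [AlgHom.comp_apply, h, map_zero]
    · rw [AlgHom.comp_apply, h, map_zero]
  rw [← hker]
  refine adm_ker_trHom h𝒟 hspan hart π M (fun σ => ?_) ?_
  · rw [← hπA σ, ← hfA]
    rfl
  obtain ⟨hcA, hdA⟩ := hDA
  obtain ⟨hcB, hdB⟩ := hDB
  obtain ⟨L₁, hL₁, hlevA⟩ := exists_level hartA hcA
  obtain ⟨L₂, hL₂, hlevB⟩ := exists_level hartB hcB
  haveI := hL₁
  haveI := hL₂
  have hcM : MatCont M := by
    refine matCont_of_level (L := L₁ ⊔ L₂) inferInstance fun σ hσ => hinjM _ _ ?_ ?_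
    · rw [map_one fA, ← hlevA σ fun x hx => hσ x ((le_sup_left : L₁ ≤ L₁ ⊔ L₂) hx)]
      exact hfA σ
    · rw [map_one fB, ← hlevB σ fun x hx => hσ x ((le_sup_right : L₂ ≤ L₁ ⊔ L₂) hx)]
      exact hfB σ
  have hAt := isTestAlgebra_of_res πA hartA
  have hBt := isTestAlgebra_of_res πB hartB
  have hCt : IsArtinianTestAlgebra 𝒪 (ResidueField 𝒪) :=
    isTestAlgebra_of_res (AlgHom.id 𝒪 _) inferInstance
  have hlA := isLocalHom_of_res πA pA
  have hlB := isLocalHom_of_res πB pB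
  refine ⟨hcM, h𝒟.of_fibreProduct hAt hBt hCt hW πA πB pA pB hlA hlB hcomm
    (fun x y h => ?_) (fun a b h => ⟨⟨(a, b), h⟩, rfl, rfl⟩) ?_ ?_⟩
  · have h' := Prod.ext_iff.mp h
    exact Subtype.ext (Prod.ext h'.1 h'.2)
  · obtain ⟨e⟩ := isEquiv_baseChangeAlong_toAdic _ hlA M hcM
    obtain ⟨e'⟩ := isEquiv_toAdic_of_eq (matCont_mapRep _ hlA hcM) hcA hfA
    exact h𝒟.of_isEquiv hAt ⟨(e.trans e').symm⟩ hdA
  · obtain ⟨e⟩ := isEquiv_baseChangeAlong_toAdic _ hlB M hcM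
    obtain ⟨e'⟩ := isEquiv_toAdic_of_eq (matCont_mapRep _ hlB hcM) hcB hfB
    exact h𝒟.of_isEquiv hBt ⟨(e.trans e').symm⟩ hdB

end Generic

theorem trHom_eq_mk {I : Ideal (TrPoly 𝒪)} {M : GQ →* M2 (TrPoly 𝒪 ⧸ I)}
    (htr : ∀ σ, (M σ).trace = Ideal.Quotient.mk I (MvPolynomial.X σ)) :
    trHom M = Ideal.Quotient.mkₐ 𝒪 I :=
  MvPolynomial.algHom_ext fun σ => (trHom_X M σ).trans (htr σ)

theorem ker_trHom_eq {I : Ideal (TrPoly 𝒪)} {M : GQ →* M2 (TrPoly 𝒪 ⧸ I)}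
    (htr : ∀ σ, (M σ).trace = Ideal.Quotient.mk I (MvPolynomial.X σ)) :
    RingHom.ker (trHom (𝒪 := 𝒪) M) = I := by
  rw [trHom_eq_mk htr]
  exact Ideal.mk_ker

include h𝒟 in
theorem Adm.mono {I I' : Ideal (TrPoly 𝒪)} (h : Adm 𝒟 ρ₀ I) (hle : I ≤ I')
    (hle' : I' ≤ RingHom.ker (trHom (𝒪 := 𝒪) ρ₀)) : Adm 𝒟 ρ₀ I' := by
  obtain ⟨_, M, π, hart, hπ, hD, htr⟩ := h
  let π' : (TrPoly 𝒪 ⧸ I') →ₐ[𝒪] ResidueField 𝒪 :=
    Ideal.Quotient.liftₐ I' (trHom ρ₀) fun a ha => hle' ha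
  have hπq : π'.comp (Ideal.Quotient.factorₐ 𝒪 hle) = π := by
    refine Ideal.Quotient.algHom_ext 𝒪 ?_
    rw [res_comp_mk ρ₀ hπ htr]
    ext σ
    rfl
  obtain ⟨hloc, M', hart', h1, h2, h3⟩ := exists_push h𝒟 (Ideal.Quotient.factorₐ 𝒪 hle)
    (Ideal.Quotient.factor_surjective hle) hart π π' hπq M hπ hD
  refine ⟨hloc, M', π', hart', h1, h2, fun σ => ?_⟩
  rw [h3, htr]
  rfl

include h𝒟 in
theorem Adm.inf (hspan : Submodule.span (ResidueField 𝒪) (Set.range ρ₀) = ⊤)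
    {I J : Ideal (TrPoly 𝒪)} (hI : Adm 𝒟 ρ₀ I) (hJ : Adm 𝒟 ρ₀ J) : Adm 𝒟 ρ₀ (I ⊓ J) := by
  obtain ⟨_, MA, πA, hartA, hπA, hDA, htrA⟩ := hI
  obtain ⟨_, MB, πB, hartB, hπB, hDB, htrB⟩ := hJ
  rw [← ker_trHom_eq htrA, ← ker_trHom_eq htrB]
  exact adm_ker_inf_ker h𝒟 hspan hartA πA MA hπA hDA hartB πB MB hπB hDB

end FermatLib.Galois.Deform

end
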