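import Mathlib

/-!
# Adic completeness of power series over a complete local ring; evaluation in nilpotent points
-/

set_option autoImplicit false

noncomputable section

namespace FermatLib.Galois.Deform.PowSer

section Sup

variable {A : Type} [CommRing A]

/-- Sums of series with terms in the powers of an ideal. -/
theorem exists_series_sum (I : Ideal A) [IsPrecomplete I A] (u : ℕ → A) (k : ℕ → ℕ)
    (hu : ∀ i, u i ∈ I ^ k i) (hk : ∀ j, ∃ N, ∀ i, N ≤ i → j ≤ k i) :
    ∃ U, ∀ j, ∃ N, ∀ i, N ≤ i → (∑ l ∈ Finset.range i, u l) - U ∈ I ^ j := by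
  choose N hN using hk
  let S : ℕ → A := fun i => ∑ l ∈ Finset.range i, u l
  let N' : ℕ → ℕ := fun j => (Finset.range (j + 1)).sup N
  have hN' : ∀ m n, m ≤ n → N' m ≤ N' n := fun m n h =>
    Finset.sup_mono (Finset.range_mono (by omega))
  have hdiff : ∀ j a b, N j ≤ a → a ≤ b → S b - S a ∈ I ^ j := by
    intro j a b ha hab
    rw [show S b - S a = ∑ l ∈ Finset.Ico a b, u l from (Finset.sum_Ico_eq_sub _ hab).symm]
    refine Ideal.sum_mem _ fun l hl => ?_
    exact Ideal.pow_le_pow_right (hN j l (le_trans ha (Finset.mem_Ico.mp hl).1)) (hu l)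
  have hle : ∀ j, N j ≤ N' j := fun j => Finset.le_sup (Finset.self_mem_range_succ j)
  obtain ⟨U, hU⟩ := IsPrecomplete.prec (I := I) (M := A) inferInstance (f := fun j => S (N' j))
    fun {m n} hmn => by
      rw [SModEq.sub_mem, smul_eq_mul, Ideal.mul_top, ← neg_sub]
      exact Submodule.neg_mem _ (hdiff m _ _ (hle m) (hN' m n hmn))
  refine ⟨U, fun j => ⟨N' j, fun i hi => ?_⟩⟩
  have h1 := hU j
  rw [SModEq.sub_mem, smul_eq_mul, Ideal.mul_top] at h1
  have h2 := hdiff j _ _ (hle j) hi
  have := Ideal.add_mem _ h2 h1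
  rwa [show S i - S (N' j) + (S (N' j) - U) = S i - U by ring] at this

theorem isPrecomplete_sup (I J : Ideal A) [IsPrecomplete I A] [IsPrecomplete J A] :
    IsPrecomplete (I ⊔ J) A := by
  refine ⟨fun f hf => ?_⟩
  have hd : ∀ n, f (n + 1) - f n ∈ I ^ (n / 2) ⊔ J ^ (n / 2) := by
    intro n
    have h := hf (Nat.le_succ n)
    rw [SModEq.sub_mem, smul_eq_mul, Ideal.mul_top] at h
    have : (I ⊔ J) ^ n ≤ I ^ (n / 2) ⊔ J ^ (n / 2) :=
      (Ideal.pow_le_pow_right (by omega : n / 2 + n / 2 ≤ n)).trans Ideal.sup_pow_add_le_pow_sup_pow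
    rw [← neg_sub]
    exact Submodule.neg_mem _ (this h)
  choose u hu v hv huv using fun n => Submodule.mem_sup.mp (hd n)
  have hk : ∀ j, ∃ N, ∀ i, N ≤ i → j ≤ i / 2 := fun j => ⟨2 * j, fun i hi => by omega⟩
  obtain ⟨U, hU⟩ := exists_series_sum I u (fun i => i / 2) hu hk
  obtain ⟨V, hV⟩ := exists_series_sum J v (fun i => i / 2) hv hk
  refine ⟨f 0 + U + V, fun n => ?_⟩
  rw [SModEq.sub_mem, smul_eq_mul, Ideal.mul_top]
  obtain ⟨N, hN⟩ := hU n
  obtain ⟨N', hN'⟩ := hV n
  let m := max n (max N N')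
  have h1 : f n - f m ∈ (I ⊔ J) ^ n := by
    have h := hf (show n ≤ m from le_max_left _ _)
    rwa [SModEq.sub_mem, smul_eq_mul, Ideal.mul_top] at h
  have hfm : f m = f 0 + ∑ l ∈ Finset.range m, u l + ∑ l ∈ Finset.range m, v l := by
    have := Finset.sum_range_sub f m
    simp only [← huv, Finset.sum_add_distrib] at this
    linear_combination -this
  have h2 := Ideal.add_mem _
    (Ideal.pow_right_mono (le_sup_left : I ≤ I ⊔ J) n (hN m (by omega)))
    (Ideal.pow_right_mono (le_sup_right : J ≤ I ⊔ J) n (hN' m (by omega)))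
  have := Ideal.add_mem _ h1 h2
  convert this using 1
  rw [hfm]; ring

end Sup

section Complete

open MvPowerSeries IsLocalRing

variable {R : Type} [CommRing R] {σ : Type}

theorem constantCoeff_eq_zero_iff_mem_span [Finite σ] {f : MvPowerSeries σ R} :
    MvPowerSeries.constantCoeff f = 0 ↔
      f ∈ Ideal.span (Set.range (MvPowerSeries.X : σ → MvPowerSeries σ R)) := by
  constructor
  · intro hf
    have h : truncTotalAlgHom σ R 1 f = 0 := by
      show Ideal.Quotient.mk _ (truncTotal 1 f) = 0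
      rw [Ideal.Quotient.eq_zero_iff_mem]
      refine (MvPolynomial.mem_pow_idealOfVars_iff' ..).mpr fun x hx => ?_
      rw [coeff_truncTotal _ hx]
      have : x = 0 := (Finsupp.degree_eq_zero_iff x).mp (Nat.lt_one_iff.mp hx)
      rw [this, ← MvPowerSeries.coeff_zero_eq_constantCoeff] at *
      exact hf
    have h' : (toAdicCompletionAlgEquiv σ R f) ∈
        LinearMap.ker (AdicCompletion.eval (MvPolynomial.idealOfVars σ R) (MvPolynomial σ R) 1) := by
      show (toAdicCompletion σ R f).val 1 = 0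
      rw [toAdicCompletion_apply_eq_mk_truncTotal, smul_eq_mul]
      have h2 : truncTotal 1 f ∈ MvPolynomial.idealOfVars σ R ^ 1 :=
        Ideal.Quotient.eq_zero_iff_mem.mp h
      exact (Submodule.Quotient.mk_eq_zero _).mpr (by simpa using h2)
    rw [← AdicCompletion.pow_smul_top_eq_ker_eval (MvPolynomial.idealOfVars_fg σ R), pow_one,
      Ideal.smul_top_eq_map, Submodule.restrictScalars_mem] at h'
    have hle : (MvPolynomial.idealOfVars σ R).map (algebraMap (MvPolynomial σ R)
        (AdicCompletion (MvPolynomial.idealOfVars σ R) (MvPolynomial σ R))) ≤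
        (Ideal.span (Set.range (MvPowerSeries.X : σ → MvPowerSeries σ R))).comap
          (toAdicCompletionAlgEquiv σ R).symm := by
      rw [Ideal.map_span, Ideal.span_le, ← Set.range_comp]
      rintro _ ⟨i, rfl⟩
      rw [SetLike.mem_coe, Ideal.mem_comap]
      show (toAdicCompletionAlgEquiv σ R).symm
        (algebraMap (MvPolynomial σ R) _ (MvPolynomial.X i)) ∈ _
      rw [AlgEquiv.commutes]
      show ((MvPolynomial.X i : MvPolynomial σ R) : MvPowerSeries σ R) ∈ _
      rw [MvPolynomial.coe_X]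
      exact Ideal.subset_span ⟨i, rfl⟩
    have h3 : (toAdicCompletionAlgEquiv σ R).symm (toAdicCompletionAlgEquiv σ R f) ∈
        Ideal.span (Set.range (MvPowerSeries.X : σ → MvPowerSeries σ R)) := hle h'
    rwa [AlgEquiv.symm_apply_apply] at h3
  · intro hf
    refine (Ideal.span_le.mpr ?_ : _ ≤ RingHom.ker (MvPowerSeries.constantCoeff (σ := σ) (R := R))) hf
    rintro _ ⟨i, rfl⟩
    exact MvPowerSeries.constantCoeff_X i

theorem maximalIdeal_eq [IsLocalRing R] [Finite σ] :
    maximalIdeal (MvPowerSeries σ R) = (maximalIdeal R).map MvPowerSeries.C ⊔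
      Ideal.span (Set.range (MvPowerSeries.X : σ → MvPowerSeries σ R)) := by
  have key : ∀ f : MvPowerSeries σ R, f ∈ maximalIdeal (MvPowerSeries σ R) ↔
      MvPowerSeries.constantCoeff f ∈ maximalIdeal R := fun f => by
    simp [MvPowerSeries.isUnit_iff_constantCoeff]
  refine le_antisymm (fun f hf => ?_) (sup_le ?_ ?_)
  · rw [← add_sub_cancel (MvPowerSeries.C (MvPowerSeries.constantCoeff f)) f]
    exact Submodule.add_mem_sup (Ideal.mem_map_of_mem _ ((key f).mp hf))
      (constantCoeff_eq_zero_iff_mem_span.mp (by simp))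
  · rw [Ideal.map_le_iff_le_comap]
    exact fun c hc => (key _).mpr (by simpa using hc)
  · rw [Ideal.span_le]
    rintro _ ⟨i, rfl⟩
    exact (key _).mpr (by simp)

theorem coeff_mem_of_mem_map {I : Ideal R} {g : MvPowerSeries σ R}
    (hg : g ∈ I.map MvPowerSeries.C) (d : σ →₀ ℕ) : MvPowerSeries.coeff d g ∈ I := by
  induction hg using Submodule.span_induction generalizing d with
  | mem g hg =>
    classical
    obtain ⟨c, hc, rfl⟩ := hg
    rw [MvPowerSeries.coeff_C]
    split_ifs
    · exact hc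
    · exact I.zero_mem
  | zero => simp
  | add x y _ _ hx hy => rw [map_add]; exact I.add_mem (hx d) (hy d)
  | smul a x _ hx =>
    classical
    rw [smul_eq_mul, MvPowerSeries.coeff_mul]
    exact I.sum_mem fun p _ => I.mul_mem_left _ (hx _)

theorem isPrecomplete_map_C [IsDomain R] [IsPrincipalIdealRing R] (I : Ideal R)
    [IsPrecomplete I R] :
    IsPrecomplete (I.map (MvPowerSeries.C : R →+* MvPowerSeries σ R)) (MvPowerSeries σ R) := by
  obtain ⟨w, hw⟩ := IsPrincipalIdealRing.principal I
  refine ⟨fun f hf => ?_⟩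
  have hf' : ∀ m n, m ≤ n → f m - f n ∈ (I ^ m).map MvPowerSeries.C := fun m n h => by
    have := hf h
    rwa [SModEq.sub_mem, smul_eq_mul, Ideal.mul_top, ← Ideal.map_pow] at this
  have : ∀ d, ∃ L, ∀ n, MvPowerSeries.coeff d (f n) - L ∈ I ^ n := fun d => by
    obtain ⟨L, hL⟩ := IsPrecomplete.prec (I := I) (M := R) inferInstance
      (f := fun n => MvPowerSeries.coeff d (f n)) fun {m n} h => by
        rw [SModEq.sub_mem, smul_eq_mul, Ideal.mul_top, ← map_sub]
        exact coeff_mem_of_mem_map (hf' m n h) d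
    exact ⟨L, fun n => by have := hL n; rwa [SModEq.sub_mem, smul_eq_mul, Ideal.mul_top] at this⟩
  choose L hL using this
  let L' : MvPowerSeries σ R := fun d => L d
  refine ⟨L', fun n => ?_⟩
  rw [SModEq.sub_mem, smul_eq_mul, Ideal.mul_top, ← Ideal.map_pow]
  have hpow : I ^ n = Ideal.span {w ^ n} := by
    rw [hw, ← Ideal.span_singleton_pow]
  have hq : ∀ d, ∃ q, w ^ n * q = MvPowerSeries.coeff d (f n) - L d := fun d => by
    have := hL d n
    rw [hpow, Ideal.mem_span_singleton] at this
    obtain ⟨q, hq⟩ := this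
    exact ⟨q, hq.symm⟩
  choose q hq using hq
  let g : MvPowerSeries σ R := fun d => q d
  have heq : f n - L' = MvPowerSeries.C (w ^ n) * g := by
    ext d
    rw [MvPowerSeries.coeff_C_mul, map_sub]
    exact (hq d).symm
  show f n - L' ∈ _
  rw [heq]
  exact Ideal.mul_mem_right _ _
    (Ideal.mem_map_of_mem _ (by rw [hpow]; exact Ideal.mem_span_singleton_self _))

theorem isAdicComplete_maximalIdeal [IsDomain R] [IsDiscreteValuationRing R]
    [IsAdicComplete (maximalIdeal R) R] [Finite σ] :
    IsAdicComplete (maximalIdeal (MvPowerSeries σ R)) (MvPowerSeries σ R) where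
  toIsHausdorff := inferInstance
  toIsPrecomplete := by
    rw [maximalIdeal_eq]
    haveI := isPrecomplete_map_C (σ := σ) (maximalIdeal R)
    exact isPrecomplete_sup _ _

end Complete

end FermatLib.Galois.Deform.PowSer

end
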