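import Mathlib
import Fermat.Prelude.Thm_IsLocalRing_isAdicComplete_of_module_finite
import Fermat.Agent.Galois.Deform.TestAlg
import Fermat.Agent.Galois.Deform.PowerSeries

/-!
# The limit of a tower of finite quotients as a complete Noetherian local algebra
-/

set_option autoImplicit false

noncomputable section

open IsLocalRing

namespace FermatLib.Galois.Deform.Tower

variable {𝒪 : Type} [CommRing 𝒪] [IsDomain 𝒪] [IsDiscreteValuationRing 𝒪]
  [IsAdicComplete (IsLocalRing.maximalIdeal 𝒪) 𝒪] {P : Type} [CommRing P] [Algebra 𝒪 P]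
  (ε : P →ₐ[𝒪] ResidueField 𝒪)

omit [IsDomain 𝒪] [IsDiscreteValuationRing 𝒪] [IsAdicComplete (IsLocalRing.maximalIdeal 𝒪) 𝒪] in
theorem aeval_mem_of_mem_pow {r : ℕ} (x : Fin r → P) {M : Ideal P} (hx : ∀ i, x i ∈ M) (n : ℕ)
    {t : MvPolynomial (Fin r) 𝒪} (ht : t ∈ MvPolynomial.idealOfVars (Fin r) 𝒪 ^ n) :
    MvPolynomial.aeval x t ∈ M ^ n := by
  have h : MvPolynomial.idealOfVars (Fin r) 𝒪 ≤
      M.comap (MvPolynomial.aeval x : MvPolynomial (Fin r) 𝒪 →ₐ[𝒪] P) := by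
    rw [Ideal.span_le]
    rintro _ ⟨i, rfl⟩
    rw [SetLike.mem_coe, Ideal.mem_comap, MvPolynomial.aeval_X]
    exact hx i
  exact Ideal.le_comap_pow _ _ (Ideal.pow_right_mono h n ht)

/-- The complete Noetherian local algebra with levels `P ⧸ J n`. -/
theorem exists_limitRing {r : ℕ} (x : Fin r → P) (hx : ∀ i, x i ∈ RingHom.ker ε)
    (J : ℕ → Ideal P) (hJle : ∀ n, J n ≤ RingHom.ker ε)
    (hJpow : ∀ n, RingHom.ker ε ^ (n + 1) ≤ J n) (hanti : ∀ n, J (n + 1) ≤ J n)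
    (hsucc : ∀ n, J n ≤ J (n + 1) ⊔ RingHom.ker ε ^ (n + 1))
    (hsurj : ∀ n, Function.Surjective
      ((Ideal.Quotient.mkₐ 𝒪 (J n)).comp (MvPolynomial.aeval x))) :
    ∃ (R : Type) (_ : CommRing R) (_ : IsLocalRing R) (_ : IsNoetherianRing R)
      (_ : IsAdicComplete (maximalIdeal R) R) (_ : Algebra 𝒪 R) (_ : R →ₐ[𝒪] ResidueField 𝒪)
      (Φ : ∀ n, R →ₐ[𝒪] (P ⧸ J n)), (∀ n, Function.Surjective (Φ n)) ∧
      (∀ n, (Ideal.Quotient.factorₐ 𝒪 (hanti n)).comp (Φ (n + 1)) = Φ n) ∧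
      (∀ n, RingHom.ker (Φ n) = maximalIdeal R ^ (n + 1)) := by
  set S := MvPowerSeries (Fin r) 𝒪
  let T := MvPolynomial (Fin r) 𝒪
  have hker : ∀ n, ∀ t ∈ MvPolynomial.idealOfVars (Fin r) 𝒪 ^ (n + 1),
      (Ideal.Quotient.mkₐ 𝒪 (J n)).comp (MvPolynomial.aeval x) t = 0 := fun n t ht => by
    rw [AlgHom.comp_apply, Ideal.Quotient.mkₐ_eq_mk, Ideal.Quotient.eq_zero_iff_mem]
    exact hJpow n (aeval_mem_of_mem_pow x hx (n + 1) ht)
  let Ψ : ∀ n, S →ₐ[𝒪] (P ⧸ J n) := fun n =>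
    { ((Ideal.Quotient.liftₐ _ _ (hker n)).toRingHom.comp
        (MvPowerSeries.truncTotalAlgHom (Fin r) 𝒪 (n + 1)).toRingHom) with
      commutes' := fun c => by
        show Ideal.Quotient.liftₐ _ _ (hker n)
          (MvPowerSeries.truncTotalAlgHom (Fin r) 𝒪 (n + 1) (algebraMap 𝒪 S c)) = _
        rw [show algebraMap 𝒪 S c = algebraMap T S (MvPolynomial.C c) from
          (MvPolynomial.coe_C c).symm, AlgHom.commutes]
        exact AlgHom.commutes ((Ideal.Quotient.mkₐ 𝒪 (J n)).comp (MvPolynomial.aeval x)) c }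
  have hΨ : ∀ n (f : S), Ψ n f =
      Ideal.Quotient.mk (J n) (MvPolynomial.aeval x (MvPowerSeries.truncTotal (n + 1) f)) :=
    fun n f => rfl
  have hΨsurj : ∀ n, Function.Surjective (Ψ n) := fun n y => by
    obtain ⟨t, ht⟩ := hsurj n y
    refine ⟨algebraMap T S t, ?_⟩
    show Ideal.Quotient.liftₐ _ _ (hker n)
      (MvPowerSeries.truncTotalAlgHom (Fin r) 𝒪 (n + 1) (algebraMap T S t)) = y
    rw [AlgHom.commutes]
    exact ht
  have hΨc : ∀ n, (Ideal.Quotient.factorₐ 𝒪 (hanti n)).comp (Ψ (n + 1)) = Ψ n := fun n =>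
    AlgHom.ext fun f => by
      rw [AlgHom.comp_apply, hΨ, hΨ]
      show Ideal.Quotient.factor (hanti n) (Ideal.Quotient.mk _ _) = _
      rw [Ideal.Quotient.factor_mk, Ideal.Quotient.eq, ← map_sub]
      exact hJpow n (aeval_mem_of_mem_pow x hx (n + 1)
        (MvPowerSeries.truncTotal_sub_truncTotal_mem_pow_idealOfVars
          (by omega) le_rfl f))
  set K : Ideal S := ⨅ n, RingHom.ker (Ψ n) with hKdef
  let εn : ∀ n, (P ⧸ J n) →ₐ[𝒪] ResidueField 𝒪 := fun n =>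
    Ideal.Quotient.liftₐ (J n) ε fun a ha => hJle n ha
  have hK : K ≠ ⊤ := fun h => by
    have h1 : (1 : S) ∈ K := h ▸ Submodule.mem_top
    have h2 := congr_arg (εn 0) (Ideal.mem_iInf.mp h1 0 : Ψ 0 1 = 0)
    simp at h2
  let R := S ⧸ K
  haveI : Nontrivial R := Ideal.Quotient.nontrivial_iff.mpr hK
  haveI : IsLocalRing R := IsLocalRing.of_surjective' (Ideal.Quotient.mk K) Ideal.Quotient.mk_surjective
  haveI : IsAdicComplete (maximalIdeal S) S := PowSer.isAdicComplete_maximalIdeal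
  haveI : IsLocalHom (algebraMap S R) :=
    IsLocalHom.of_surjective _ Ideal.Quotient.mk_surjective
  haveI hcomplete : IsAdicComplete (maximalIdeal R) R :=
    IsLocalRing.isAdicComplete_of_module_finite (𝒪 := S)
  let Φ : ∀ n, R →ₐ[𝒪] (P ⧸ J n) := fun n =>
    Ideal.Quotient.liftₐ K (Ψ n) fun a ha => Ideal.mem_iInf.mp ha n
  have hΦmk : ∀ n f, Φ n (Ideal.Quotient.mk K f) = Ψ n f := fun n f => rfl
  have hΦsurj : ∀ n, Function.Surjective (Φ n) := fun n y => by
    obtain ⟨f, rfl⟩ := hΨsurj n y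
    exact ⟨Ideal.Quotient.mk K f, rfl⟩
  have hΦc : ∀ n, (Ideal.Quotient.factorₐ 𝒪 (hanti n)).comp (Φ (n + 1)) = Φ n := fun n =>
    AlgHom.ext fun y => by
      obtain ⟨f, rfl⟩ := Ideal.Quotient.mk_surjective y
      rw [AlgHom.comp_apply, hΦmk, hΦmk, ← hΨc n, AlgHom.comp_apply]
  let π : R →ₐ[𝒪] ResidueField 𝒪 := (εn 0).comp (Φ 0)
  have hmax : ∀ n, (maximalIdeal R).map (Φ n) = (RingHom.ker ε).map (Ideal.Quotient.mk (J n)) := by
    intro n
    have h1 : maximalIdeal R = (RingHom.ker (εn n)).comap (Φ n) := by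
      ext a
      rw [Ideal.mem_comap, RingHom.mem_ker, ← res_eq_zero_iff ((εn n).comp (Φ n))]
      rfl
    have h2 : (RingHom.ker ε).map (Ideal.Quotient.mk (J n)) = RingHom.ker (εn n) := by
      ext y
      obtain ⟨p, rfl⟩ := Ideal.Quotient.mk_surjective y
      rw [Ideal.mem_quotient_iff_mem_sup, sup_eq_left.mpr (hJle n)]
      rfl
    rw [h2, h1, Ideal.map_comap_of_surjective _ (hΦsurj n)]
  have hpow : ∀ n, maximalIdeal R ^ (n + 1) ≤ RingHom.ker (Φ n) := fun n a ha => by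
    have h1 := Ideal.mem_map_of_mem (Φ n) ha
    rw [Ideal.map_pow, hmax, ← Ideal.map_pow,
      Ideal.map_eq_bot_iff_le_ker _ |>.mpr (by rw [Ideal.mk_ker]; exact hJpow n)] at h1
    exact h1
  have hKanti : ∀ m n, m ≤ n → RingHom.ker (Φ n) ≤ RingHom.ker (Φ m) := by
    intro m n hmn
    induction hmn with
    | refl => exact le_rfl
    | step h ih =>
      intro a ha
      refine ih ?_
      rw [RingHom.mem_ker] at ha ⊢
      rw [← hΦc, AlgHom.comp_apply, ha, map_zero]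
  have hstep : ∀ n, ∀ a ∈ RingHom.ker (Φ n),
      ∃ b ∈ RingHom.ker (Φ (n + 1)), a - b ∈ maximalIdeal R ^ (n + 1) := by
    intro n a ha
    have h1 : Φ (n + 1) a ∈ (maximalIdeal R ^ (n + 1)).map (Φ (n + 1)) := by
      rw [Ideal.map_pow, hmax, ← Ideal.map_pow]
      obtain ⟨p, hp⟩ := Ideal.Quotient.mk_surjective (Φ (n + 1) a)
      rw [← hp, Ideal.mem_quotient_iff_mem_sup, sup_comm]
      refine hsucc n ?_
      rw [RingHom.mem_ker, ← hΦc, AlgHom.comp_apply, ← hp] at ha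
      exact Ideal.Quotient.eq_zero_iff_mem.mp ha
    obtain ⟨y, hy, hy'⟩ := (Ideal.mem_map_iff_of_surjective _ (hΦsurj (n + 1))).mp h1
    exact ⟨a - y, by rw [RingHom.mem_ker, map_sub, hy', sub_self], by rw [sub_sub_cancel]; exact hy⟩
  have hsep : ∀ a : R, (∀ n, Φ n a = 0) → a = 0 := fun a ha => by
    obtain ⟨f, rfl⟩ := Ideal.Quotient.mk_surjective a
    exact Ideal.Quotient.eq_zero_iff_mem.mpr (Ideal.mem_iInf.mpr fun n => ha n)
  refine ⟨R, inferInstance, inferInstance, inferInstance, hcomplete, inferInstance, π, Φ, hΦsurj,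
    hΦc, fun n => le_antisymm (fun a ha => ?_) (hpow n)⟩
  choose g hg hgd using fun (i : ℕ) (z : RingHom.ker (Φ (n + i))) => hstep (n + i) z z.2
  let seq : ∀ i, RingHom.ker (Φ (n + i)) := fun i =>
    Nat.rec (motive := fun i => RingHom.ker (Φ (n + i))) ⟨a, ha⟩ (fun i z => ⟨g i z, hg i z⟩) i
  let f : ℕ → R := fun i => a - (seq i : R)
  have hd : ∀ i, f (i + 1) - f i ∈ maximalIdeal R ^ (n + i + 1) := fun i => by
    show a - (seq (i + 1) : R) - (a - (seq i : R)) ∈ _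
    rw [show a - (seq (i + 1) : R) - (a - (seq i : R)) = (seq i : R) - seq (i + 1) by ring]
    exact hgd i (seq i)
  have hd' : ∀ i j, i ≤ j → f j - f i ∈ maximalIdeal R ^ (n + i + 1) := by
    intro i j hij
    induction hij with
    | refl => simp
    | @step m hm ih =>
      have him : i ≤ m := hm
      rw [← sub_add_sub_cancel (f (m + 1)) (f m) (f i)]
      exact Ideal.add_mem _ (Ideal.pow_le_pow_right (by omega) (hd m)) ih
  obtain ⟨L, hL⟩ := IsPrecomplete.prec hcomplete.toIsPrecomplete (f := f) fun {i j} hij => by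
    rw [SModEq.sub_mem, smul_eq_mul, Ideal.mul_top, ← neg_sub]
    exact Submodule.neg_mem _ (Ideal.pow_le_pow_right (by omega) (hd' i j hij))
  replace hL : ∀ i, f i - L ∈ maximalIdeal R ^ i := fun i => by
    have := hL i
    rwa [SModEq.sub_mem, smul_eq_mul, Ideal.mul_top] at this
  have haL : a = L := by
    refine sub_eq_zero.mp (hsep _ fun l => ?_)
    rw [show a - L = (seq (l + 1) : R) + (f (l + 1) - L) by simp only [f]; ring, map_add,
      show Φ l (seq (l + 1) : R) = 0 from hKanti l (n + (l + 1)) (by omega) (seq (l + 1)).2,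
      show Φ l (f (l + 1) - L) = 0 from hpow l (hL (l + 1)), add_zero]
  have h0 : f 0 = 0 := sub_self a
  have h2 := hd' 0 (n + 1) (Nat.zero_le _)
  rw [h0, sub_zero] at h2
  have := Ideal.sub_mem _ h2 (hL (n + 1))
  rw [haL]
  rwa [sub_sub_cancel] at this

end FermatLib.Galois.Deform.Tower

end
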