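import Mathlib
import Fermat.Prelude.Def_GaloisRep_DeformationCondition
import Fermat.Agent.Galois.Deform.Adm

/-!
# The representation over the limit of a tower of deformations
-/

set_option autoImplicit false

noncomputable section

open IsLocalRing GaloisRep

namespace FermatLib.Galois.Deform

variable {𝒪 : Type} [CommRing 𝒪] [IsLocalRing 𝒪] [Finite (ResidueField 𝒪)] {𝒟 : Cond 𝒪}
  {ρ₀ : GQ →* M2 (ResidueField 𝒪)}

/-- A deformation can be conjugated so as to lift a given deformation with compatible traces. -/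
theorem exists_lift_conj (h𝒟 : IsDeformationCondition 𝒪 𝒟)
    (hspan : Submodule.span (ResidueField 𝒪) (Set.range ρ₀) = ⊤)
    {A B : Type} [CommRing A] [IsLocalRing A] [Algebra 𝒪 A] [CommRing B] [IsLocalRing B]
    [Algebra 𝒪 B] (hA : IsArtinianRing A) (πA : A →ₐ[𝒪] ResidueField 𝒪)
    (πB : B →ₐ[𝒪] ResidueField 𝒪) (q : A →ₐ[𝒪] B) (hq : Function.Surjective q)
    (MA : GQ →* M2 A) (hπA : ∀ σ, (MA σ).map πA = ρ₀ σ) (hDA : IsDef 𝒟 MA)
    (MB : GQ →* M2 B) (hπB : ∀ σ, (MB σ).map πB = ρ₀ σ)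
    (htr : ∀ σ, q (MA σ).trace = (MB σ).trace) :
    ∃ M' : GQ →* M2 A, (∀ σ, (M' σ).map πA = ρ₀ σ) ∧ IsDef 𝒟 M' ∧
      (∀ σ, (M' σ).trace = (MA σ).trace) ∧ mapRep (q : A →+* B) M' = MB := by
  have hq' : πB.comp q = πA := res_unique _ _
  obtain ⟨P, hP, hPM⟩ := Carayol.exists_conj_of_trace_eq πB ρ₀ hspan (mapRep (q : A →+* B) MA) MB
    (fun σ => by rw [← hπA σ, ← hq']; rfl) hπB (fun σ => by rw [trace_mapRep]; exact htr σ)
  choose Q hQ using fun i j => hq ((P : M2 B) i j)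
  have hQπ : (Matrix.of Q).map πA = 1 := by
    rw [← hP, ← hq']
    ext i j
    simp [hQ]
  obtain ⟨u, hu⟩ := Carayol.isUnit_of_map_eq_one πA
    (isUnit_of_res_ne_zero πA (nilpotent_of_res_eq_zero hA πA)) hQπ
  have huq : (q : A →+* B).mapMatrix (u : M2 A) = (P : M2 B) := by
    rw [hu]; ext i j; exact hQ i j
  have hinv : ((u⁻¹ : (M2 A)ˣ) : M2 A).map πA = 1 := by
    have := congr_arg (fun X : M2 A => X.map πA) u.inv_mul
    simp only [Matrix.map_mul, hu, hQπ, mul_one] at this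
    rw [this]; simp
  refine ⟨conjRep u MA, fun σ => ?_, hDA.conj h𝒟 (isTestAlgebra_of_res πA hA) u,
    trace_conjRep u MA, MonoidHom.ext fun σ => ?_⟩
  · rw [conjRep_apply, Matrix.map_mul, Matrix.map_mul, hinv, mul_one, hπA, hu, hQπ, one_mul]
  · show (q : A →+* B).mapMatrix (conjRep u MA σ) = MB σ
    have h2 : (q : A →+* B).mapMatrix ((u⁻¹ : (M2 A)ˣ) : M2 A) = ((P⁻¹ : (M2 B)ˣ) : M2 B) := by
      refine (Units.inv_eq_of_mul_eq_one_right ?_).symm
      rw [← huq, ← map_mul, Units.mul_inv, map_one]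
    rw [conjRep_apply, map_mul, map_mul, huq, h2]
    show (P : M2 B) * mapRep (q : A →+* B) MA σ * _ = _
    rw [hPM, mul_assoc, Units.mul_inv, mul_one]

variable {A : ℕ → Type} [∀ n, CommRing (A n)] [∀ n, IsLocalRing (A n)] [∀ n, Algebra 𝒪 (A n)]

/-- The deformation over the limit ring. -/
theorem exists_repLimit (h𝒟 : IsDeformationCondition 𝒪 𝒟)
    (hspan : Submodule.span (ResidueField 𝒪) (Set.range ρ₀) = ⊤)
    (hA : ∀ n, IsArtinianRing (A n)) (πn : ∀ n, A n →ₐ[𝒪] ResidueField 𝒪)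
    (q : ∀ n, A (n + 1) →ₐ[𝒪] A n) (hq : ∀ n, Function.Surjective (q n))
    (Mn : ∀ n, GQ →* M2 (A n)) (hπn : ∀ n σ, (Mn n σ).map (πn n) = ρ₀ σ)
    (hDn : ∀ n, IsDef 𝒟 (Mn n)) (htr : ∀ n σ, q n (Mn (n + 1) σ).trace = (Mn n σ).trace)
    {R : Type} [CommRing R] [IsLocalRing R] [IsNoetherianRing R]
    [IsAdicComplete (maximalIdeal R) R] [Algebra 𝒪 R] (π : R →ₐ[𝒪] ResidueField 𝒪)
    (Φ : ∀ n, R →ₐ[𝒪] A n) (hsurj : ∀ n, Function.Surjective (Φ n))
    (hc : ∀ n, (q n).comp (Φ (n + 1)) = Φ n)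
    (hker : ∀ n, RingHom.ker (Φ n) = maximalIdeal R ^ (n + 1)) :
    ∃ (M : GQ →* M2 R) (hM : MatCont M), (∀ σ, (M σ).map π = ρ₀ σ) ∧ 𝒟 (toAdic M hM) ∧
      ∀ n σ, Φ n (M σ).trace = (Mn n σ).trace := by
  let G : ℕ → Type := fun n => {M : GQ →* M2 (A n) // (∀ σ, (M σ).map (πn n) = ρ₀ σ) ∧ IsDef 𝒟 M ∧
    ∀ σ, (M σ).trace = (Mn n σ).trace}
  have hstep : ∀ n (m : G n), ∃ m' : G (n + 1), mapRep (q n : A (n + 1) →+* A n) m'.1 = m.1 := by
    intro n m
    obtain ⟨M', h1, h2, h3, h4⟩ := exists_lift_conj h𝒟 hspan (hA (n + 1)) (πn (n + 1)) (πn n)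
      (q n) (hq n) (Mn (n + 1)) (hπn (n + 1)) (hDn (n + 1)) m.1 m.2.1
      (fun σ => by rw [htr, m.2.2.2])
    exact ⟨⟨M', h1, h2, h3⟩, h4⟩
  choose next hnext using hstep
  let m : ∀ n, G n := fun n =>
    Nat.rec (motive := G) ⟨Mn 0, hπn 0, hDn 0, fun σ => rfl⟩ next n
  let M' : ∀ n, GQ →* M2 (A n) := fun n => (m n).1
  have hcompat : ∀ n σ i j, q n (M' (n + 1) σ i j) = M' n σ i j := fun n σ i j =>
    congr_fun (congr_fun (DFunLike.congr_fun (hnext n (m n)) σ) i) j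
  have hsep : ∀ a : R, (∀ n, Φ n a = 0) → a = 0 := fun a ha => by
    refine IsHausdorff.haus (I := maximalIdeal R) inferInstance a fun n => ?_
    rw [SModEq.zero, smul_eq_mul, Ideal.mul_top]
    exact Ideal.pow_le_pow_right n.le_succ (hker n ▸ (ha n : a ∈ RingHom.ker (Φ n)))
  have hlim : ∀ σ i j, ∃ L : R, ∀ n, Φ n L = M' n σ i j := by
    intro σ i j
    choose l hl using fun n => hsurj n (M' n σ i j)
    have hd : ∀ n, l (n + 1) - l n ∈ maximalIdeal R ^ (n + 1) := fun n => by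
      rw [← hker n, RingHom.mem_ker, map_sub, hl, ← hc, AlgHom.comp_apply, hl, hcompat, sub_self]
    have hd' : ∀ a b, a ≤ b → l b - l a ∈ maximalIdeal R ^ (a + 1) := by
      intro a b hab
      induction hab with
      | refl => simp
      | @step b hb ih =>
        have hb' : a ≤ b := hb
        rw [← sub_add_sub_cancel (l (b + 1)) (l b) (l a)]
        exact Ideal.add_mem _ (Ideal.pow_le_pow_right (by omega) (hd b)) ih
    obtain ⟨L, hL⟩ := IsPrecomplete.prec (I := maximalIdeal R) (M := R) inferInstance (f := l)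
      fun {a b} hab => by
        rw [SModEq.sub_mem, smul_eq_mul, Ideal.mul_top, ← neg_sub]
        exact Submodule.neg_mem _ (Ideal.pow_le_pow_right (by omega) (hd' a b hab))
    refine ⟨L, fun n => ?_⟩
    have h1 := hL (n + 1)
    rw [SModEq.sub_mem, smul_eq_mul, Ideal.mul_top] at h1
    have h2 := hd' n (n + 1) n.le_succ
    have h3 : L - l n ∈ RingHom.ker (Φ n) := by
      rw [hker, show L - l n = (l (n + 1) - l n) - (l (n + 1) - L) by ring]
      exact Ideal.sub_mem _ h2 h1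
    rw [RingHom.mem_ker, map_sub, sub_eq_zero, hl] at h3
    exact h3
  choose L hL using hlim
  let ΦM : ∀ n, M2 R →+* M2 (A n) := fun n => (Φ n : R →+* A n).mapMatrix
  have hinj : ∀ X Y : M2 R, (∀ n, ΦM n X = ΦM n Y) → X = Y := fun X Y h => by
    ext i j
    refine sub_eq_zero.mp (hsep _ fun n => ?_)
    rw [map_sub, sub_eq_zero]
    exact congr_fun (congr_fun (h n) i) j
  have hval : ∀ n σ, ΦM n (Matrix.of (L σ)) = M' n σ := fun n σ => by
    ext i j; exact hL σ i j n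
  let M : GQ →* M2 R :=
    { toFun := fun σ => Matrix.of (L σ)
      map_one' := hinj _ _ fun n => by rw [hval, map_one (ΦM n), map_one (M' n)]
      map_mul' := fun σ τ => hinj _ _ fun n => by
        rw [map_mul (ΦM n), hval, hval, hval, map_mul] }
  have hmap : ∀ n, mapRep (Φ n : R →+* A n) M = M' n := fun n => MonoidHom.ext fun σ => hval n σ
  have hM : MatCont M := by
    intro n
    obtain ⟨Lf, hLf, hlev⟩ := exists_level (hA n) (m n).2.2.1.choose
    refine ⟨Lf, hLf, fun σ hσ i j => Ideal.pow_le_pow_right n.le_succ ?_⟩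
    rw [← hker n, RingHom.mem_ker]
    show ΦM n (M σ - 1) i j = 0
    rw [map_sub (ΦM n), map_one (ΦM n)]
    show ((ΦM n (Matrix.of (L σ))) - 1) i j = 0
    rw [hval, hlev σ hσ, sub_self]
    rfl
  have hres : ∀ σ, (M σ).map π = ρ₀ σ := fun σ => by
    rw [← (m 0).2.1 σ, res_unique π ((πn 0).comp (Φ 0))]
    show _ = (M' 0 σ).map (πn 0)
    rw [← hmap 0]
    rfl
  refine ⟨M, hM, hres, ?_, fun n σ => ?_⟩
  · rw [h𝒟.iff_forall_surjective (isLocalHom_algebraMap_of_res π) (residue_surjective_of_res π)]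
    intro B _ _ _ hB f hf hfs
    haveI := hB.isArtinian
    obtain ⟨N, hN⟩ := (isArtinianRing_iff_isNilpotent_maximalIdeal B).mp hB.isArtinian
    have hkill : ∀ a ∈ RingHom.ker (Φ N), f a = 0 := fun a ha => by
      rw [hker] at ha
      have h1 := Ideal.mem_map_of_mem (f : R →+* B) ha
      rw [Ideal.map_pow] at h1
      have h2 : (maximalIdeal R).map (f : R →+* B) ≤ maximalIdeal B :=
        Ideal.map_le_iff_le_comap.mpr fun y hy => Ideal.mem_comap.mpr (map_nonunit _ y hy)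
      have h3 := Ideal.pow_le_pow_right N.le_succ (Ideal.pow_right_mono h2 _ h1)
      rw [hN] at h3
      exact Ideal.mem_bot.mp h3
    let f' : A N →ₐ[𝒪] B := (Ideal.Quotient.liftₐ (RingHom.ker (Φ N)) f hkill).comp
      (Ideal.quotientKerAlgEquivOfSurjective (hsurj N)).symm.toAlgHom
    have hf' : ∀ a, f' (Φ N a) = f a := fun a => by
      show Ideal.Quotient.liftₐ _ f hkill
        ((Ideal.quotientKerAlgEquivOfSurjective (hsurj N)).symm (Φ N a)) = _
      rw [show Φ N a = Ideal.quotientKerAlgEquivOfSurjective (hsurj N)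
        (Ideal.Quotient.mk _ a) from rfl, AlgEquiv.symm_apply_apply]
      rfl
    have hmf : mapRep (f : R →+* B) M = mapRep (f' : A N →+* B) (M' N) := by
      rw [← hmap N]
      ext σ i j
      exact (hf' _).symm
    obtain ⟨πB⟩ := exists_res_of_test hB
    obtain ⟨hc', hD'⟩ : IsDef 𝒟 (mapRep (f : R →+* B) M) := by
      rw [hmf]
      exact (m N).2.2.1.map h𝒟 (isTestAlgebra_of_res (πn N) (hA N)) hB f'
    obtain ⟨e⟩ := isEquiv_baseChangeAlong_toAdic (f : R →+* B) hf M hM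
    obtain ⟨e'⟩ := isEquiv_toAdic_of_eq (matCont_mapRep _ hf hM) hc' (fun σ => rfl)
    exact h𝒟.of_isEquiv hB ⟨(e.trans e').symm⟩ hD'
  · rw [← (m n).2.2.2 σ]
    show _ = (M' n σ).trace
    rw [← hmap n, trace_mapRep]
    rfl

end FermatLib.Galois.Deform

end
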