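import Mathlib
import Fermat.Prelude.Def_GaloisRep_Residual

/-!
# Burnside's theorem in dimension two

An absolutely irreducible two-dimensional representation spans the matrix algebra.
-/

set_option autoImplicit false

noncomputable section

open Module Matrix

namespace FermatLib.Galois.Deform.Burnside

variable {K : Type} [Field K] {G : Type} [Monoid G]

theorem eq_vecMulVec_of_det_eq_zero (y : Matrix (Fin 2) (Fin 2) K) (hy : y.det = 0) :
    ∃ u φ : Fin 2 → K, y = Matrix.vecMulVec u φ := by
  rw [Matrix.det_fin_two] at hy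
  by_cases h0 : y 0 0 = 0
  · by_cases h1 : y 0 1 = 0
    · refine ⟨![0, 1], y 1, ?_⟩
      ext i j
      fin_cases i <;> fin_cases j <;> simp [Matrix.vecMulVec, h0, h1]
    · refine ⟨![1, y 1 1 / y 0 1], y 0, ?_⟩
      ext i j
      fin_cases i <;> fin_cases j <;> simp [Matrix.vecMulVec, h0]
      · have : y 0 1 * y 1 0 = 0 := by linear_combination (-1 : K) * hy + (y 1 1) * h0
        exact (mul_eq_zero.mp this).resolve_left h1
      · field_simp
  · refine ⟨![1, y 1 0 / y 0 0], y 0, ?_⟩
    ext i j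
    fin_cases i <;> fin_cases j <;> simp [Matrix.vecMulVec]
    · field_simp
    · field_simp
      linear_combination hy

/-- Over an algebraically closed field, an irreducible set of matrices spans `M₂`. -/
theorem span_eq_top_of_isAlgClosed [IsAlgClosed K] (M : G →* Matrix (Fin 2) (Fin 2) K)
    (hirr : ∀ W : Submodule K (Fin 2 → K), (∀ g, ∀ x ∈ W, M g *ᵥ x ∈ W) → W = ⊥ ∨ W = ⊤) :
    Submodule.span K (Set.range M) = ⊤ := by
  set E := Submodule.span K (Set.range M)
  have hmul : ∀ g, ∀ x ∈ E, M g * x ∈ E := by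
    intro g x hx
    refine (Submodule.span_le.mpr ?_ : E ≤ E.comap (LinearMap.mulLeft K (M g))) hx
    rintro _ ⟨h, rfl⟩
    exact Submodule.subset_span ⟨g * h, map_mul M g h⟩
  have hmulr : ∀ g, ∀ x ∈ E, x * M g ∈ E := by
    intro g x hx
    refine (Submodule.span_le.mpr ?_ : E ≤ E.comap (LinearMap.mulRight K (M g))) hx
    rintro _ ⟨h, rfl⟩
    exact Submodule.subset_span ⟨h * g, map_mul M h g⟩
  have hone : (1 : Matrix (Fin 2) (Fin 2) K) ∈ E := Submodule.subset_span ⟨1, map_one M⟩
  -- a non-scalar element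
  obtain ⟨x, hxE, hx⟩ : ∃ x ∈ E, ∀ c : K, x ≠ c • 1 := by
    by_contra hcon
    push Not at hcon
    rcases hirr (K ∙ Pi.single 0 1) (fun g w hw => by
      obtain ⟨c, hc⟩ := hcon _ (Submodule.subset_span ⟨g, rfl⟩)
      rw [hc, Matrix.smul_mulVec, Matrix.one_mulVec]
      exact Submodule.smul_mem _ _ hw) with h | h
    · have := congr_fun (Submodule.span_singleton_eq_bot.mp h) 0
      simp at this
    · have h1 : (Pi.single 1 1 : Fin 2 → K) ∈ K ∙ (Pi.single 0 1 : Fin 2 → K) :=
        h ▸ Submodule.mem_top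
      obtain ⟨a, ha⟩ := Submodule.mem_span_singleton.mp h1
      have := congr_fun ha 1
      simp at this
  obtain ⟨l, hl⟩ := IsAlgClosed.exists_root x.charpoly (by
    rw [Polynomial.degree_eq_natDegree (Matrix.charpoly_monic x).ne_zero,
      Matrix.charpoly_natDegree_eq_dim]
    simp)
  obtain ⟨u, φ, hy⟩ := eq_vecMulVec_of_det_eq_zero (Matrix.scalar (Fin 2) l - x)
    (by rw [← Matrix.eval_charpoly]; exact hl)
  have hyE : Matrix.vecMulVec u φ ∈ E := by
    rw [← hy]
    refine Submodule.sub_mem _ ?_ hxE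
    rw [show Matrix.scalar (Fin 2) l = l • (1 : Matrix (Fin 2) (Fin 2) K) by
      rw [Matrix.scalar_apply, Matrix.smul_one_eq_diagonal]]
    exact Submodule.smul_mem _ _ hone
  have hy0 : Matrix.vecMulVec u φ ≠ 0 := by
    rw [← hy, sub_ne_zero]
    intro h
    refine hx l ?_
    rw [← h, Matrix.scalar_apply, Matrix.smul_one_eq_diagonal]
  have hu : u ≠ 0 := fun h => hy0 (by rw [h]; ext i j; simp [Matrix.vecMulVec])
  have hφ : φ ≠ 0 := fun h => hy0 (by rw [h]; ext i j; simp [Matrix.vecMulVec])
  have hvm : ∀ (a : Matrix (Fin 2) (Fin 2) K) (v ψ : Fin 2 → K),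
      a * Matrix.vecMulVec v ψ = Matrix.vecMulVec (a *ᵥ v) ψ := fun a v ψ => by
    ext i j; simp [Matrix.vecMulVec, Matrix.mul_apply, Matrix.mulVec, dotProduct]; ring
  have hvm' : ∀ (a : Matrix (Fin 2) (Fin 2) K) (v ψ : Fin 2 → K),
      Matrix.vecMulVec v ψ * a = Matrix.vecMulVec v (ψ ᵥ* a) := fun a v ψ => by
    ext i j; simp [Matrix.vecMulVec, Matrix.mul_apply, Matrix.vecMul, dotProduct]; ring
  -- all `v ⊗ φ`
  let U : Submodule K (Fin 2 → K) :=
    { carrier := {v | Matrix.vecMulVec v φ ∈ E}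
      zero_mem' := by
        show Matrix.vecMulVec (0 : Fin 2 → K) φ ∈ E
        rw [show Matrix.vecMulVec (0 : Fin 2 → K) φ = 0 by ext i j; simp [Matrix.vecMulVec]]
        exact Submodule.zero_mem _
      add_mem' := fun {a b} ha hb => by
        show Matrix.vecMulVec (a + b) φ ∈ E
        rw [show Matrix.vecMulVec (a + b) φ = Matrix.vecMulVec a φ + Matrix.vecMulVec b φ by
          ext i j; simp [Matrix.vecMulVec, add_mul]]
        exact Submodule.add_mem _ ha hb
      smul_mem' := fun c a ha => by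
        show Matrix.vecMulVec (c • a) φ ∈ E
        rw [show Matrix.vecMulVec (c • a) φ = c • Matrix.vecMulVec a φ by
          ext i j; simp [Matrix.vecMulVec, mul_assoc]]
        exact Submodule.smul_mem _ _ ha }
  have hU : ∀ v, Matrix.vecMulVec v φ ∈ E := by
    rcases hirr U (fun g v hv => by
      show Matrix.vecMulVec (M g *ᵥ v) φ ∈ E
      rw [← hvm]
      exact hmul g _ hv) with h | h
    · exact absurd ((Submodule.eq_bot_iff U).mp h u hyE) hu
    · exact fun v => (h ▸ Submodule.mem_top : v ∈ U)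
  -- a second functional
  obtain ⟨g, hg⟩ : ∃ g, φ 0 * (φ ᵥ* M g) 1 - φ 1 * (φ ᵥ* M g) 0 ≠ 0 := by
    by_contra hcon
    push Not at hcon
    let w : Fin 2 → K := ![-φ 1, φ 0]
    have hw : w ≠ 0 := fun h => hφ (by
      have h0 := congr_fun h 0
      have h1 := congr_fun h 1
      simp [w] at h0 h1
      ext i; fin_cases i <;> simp [h0, h1])
    let W : Submodule K (Fin 2 → K) :=
      { carrier := {v | φ ⬝ᵥ v = 0}
        zero_mem' := dotProduct_zero φ
        add_mem' := fun {a b} ha hb => by
          show φ ⬝ᵥ (a + b) = 0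
          rw [dotProduct_add, show φ ⬝ᵥ a = 0 from ha, show φ ⬝ᵥ b = 0 from hb, add_zero]
        smul_mem' := fun c a ha => by
          show φ ⬝ᵥ (c • a) = 0
          rw [dotProduct_smul, show φ ⬝ᵥ a = 0 from ha, smul_zero] }
    rcases hirr W (fun g v hv => by
      show φ ⬝ᵥ (M g *ᵥ v) = 0
      rw [Matrix.dotProduct_mulVec]
      have hv' : φ 0 * v 0 + φ 1 * v 1 = 0 := by
        have hv'' : φ ⬝ᵥ v = 0 := hv
        simpa [dotProduct, Fin.sum_univ_two] using hv''
      simp only [dotProduct, Fin.sum_univ_two]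
      by_cases h : φ 0 = 0
      · have h1 : φ 1 ≠ 0 := fun h1 => hφ (by ext i; fin_cases i <;> simp [h, h1])
        have hv1 : v 1 = 0 := by
          have : φ 1 * v 1 = 0 := by linear_combination hv' - v 0 * h
          exact (mul_eq_zero.mp this).resolve_left h1
        have hb : (φ ᵥ* M g) 0 = 0 := by
          have : φ 1 * (φ ᵥ* M g) 0 = 0 := by
            linear_combination (φ ᵥ* M g) 1 * h - hcon g
          exact (mul_eq_zero.mp this).resolve_left h1
        rw [hv1, hb]; ring
      · have : φ 0 * ((φ ᵥ* M g) 0 * v 0 + (φ ᵥ* M g) 1 * v 1) = 0 := by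
          linear_combination (φ ᵥ* M g) 0 * hv' + v 1 * hcon g
        exact (mul_eq_zero.mp this).resolve_left h) with h | h
    · refine hw ((Submodule.eq_bot_iff W).mp h w ?_)
      show φ ⬝ᵥ w = 0
      simp [w, dotProduct]; ring
    · refine hφ (funext fun i => ?_)
      have : (Pi.single i 1 : Fin 2 → K) ∈ W := h ▸ Submodule.mem_top
      have : φ ⬝ᵥ (Pi.single i 1 : Fin 2 → K) = 0 := this
      simpa using this
  set ψ := φ ᵥ* M g
  have hψ : ∀ v, Matrix.vecMulVec v ψ ∈ E := fun v => by
    rw [← hvm']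
    exact hmulr g _ (hU v)
  refine eq_top_iff.mpr fun z _ => ?_
  set d := φ 0 * ψ 1 - φ 1 * ψ 0
  have hz : z = Matrix.vecMulVec (fun i => (z i 0 * ψ 1 - z i 1 * ψ 0) / d) φ +
      Matrix.vecMulVec (fun i => (z i 1 * φ 0 - z i 0 * φ 1) / d) ψ := by
    ext i j
    fin_cases j <;>
    · simp only [Matrix.add_apply, Matrix.vecMulVec_apply]
      simp only [Fin.zero_eta, Fin.mk_one, Fin.isValue]
      rw [div_mul_eq_mul_div, div_mul_eq_mul_div, ← add_div, eq_div_iff hg]
      simp only [d]
      ring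
  rw [hz]
  exact Submodule.add_mem _ (hU _) (hψ _)

/-- A representation over a field that is irreducible over an algebraically closed extension
spans `M₂`. -/
theorem span_eq_top {k : Type} [Field k] [Algebra k K] [IsAlgClosed K]
    (M : G →* Matrix (Fin 2) (Fin 2) k)
    (hirr : ∀ W : Submodule K (Fin 2 → K),
      (∀ g, ∀ x ∈ W, (M g).map (algebraMap k K) *ᵥ x ∈ W) → W = ⊥ ∨ W = ⊤) :
    Submodule.span k (Set.range M) = ⊤ := by
  by_contra hne
  obtain ⟨f, hf, hker⟩ := Submodule.exists_le_ker_of_lt_top _ (lt_top_iff_ne_top.mpr hne)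
  have hfX : ∀ X, f X = ∑ i, ∑ j, X i j * f (Matrix.single i j 1) := fun X => by
    conv_lhs => rw [matrix_eq_sum_single X]
    simp only [map_sum]
    refine Finset.sum_congr rfl fun i _ => Finset.sum_congr rfl fun j _ => ?_
    rw [show Matrix.single i j (X i j) = X i j • Matrix.single i j (1 : k) by simp, map_smul,
      smul_eq_mul]
  let fK : Matrix (Fin 2) (Fin 2) K →ₗ[K] K :=
    ∑ i, ∑ j, (algebraMap k K (f (Matrix.single i j 1))) •
      Matrix.entryLinearMap K K i j
  have hfK : ∀ X, fK X = ∑ i, ∑ j, algebraMap k K (f (Matrix.single i j 1)) * X i j := fun X => by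
    simp only [fK, LinearMap.sum_apply, LinearMap.smul_apply, smul_eq_mul]
    rfl
  let MK : G →* Matrix (Fin 2) (Fin 2) K :=
    ((algebraMap k K).mapMatrix : Matrix (Fin 2) (Fin 2) k →+* _).toMonoidHom.comp M
  have htop := span_eq_top_of_isAlgClosed MK hirr
  have hzero : ∀ X, fK X = 0 := fun X => by
    have hX : X ∈ Submodule.span K (Set.range MK) := htop ▸ Submodule.mem_top
    refine (Submodule.span_le.mpr ?_ : _ ≤ LinearMap.ker fK) hX
    rintro _ ⟨g, rfl⟩
    have h0 : f (M g) = 0 := hker (Submodule.subset_span ⟨g, rfl⟩)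
    rw [hfX] at h0
    show fK (MK g) = 0
    rw [hfK, ← map_zero (algebraMap k K), ← h0, map_sum]
    refine Finset.sum_congr rfl fun i _ => ?_
    rw [map_sum]
    refine Finset.sum_congr rfl fun j _ => ?_
    rw [map_mul, mul_comm]
    rfl
  refine hf (LinearMap.ext fun X => ?_)
  rw [hfX, LinearMap.zero_apply]
  refine Finset.sum_eq_zero fun i _ => Finset.sum_eq_zero fun j _ => ?_
  have := hzero (Matrix.single i j 1)
  rw [hfK] at this
  fin_cases i <;> fin_cases j <;> simp [Fin.sum_univ_two] at this ⊢ <;> simp [this]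

/-- The matrices of an absolutely irreducible residual representation span `M₂`. -/
theorem span_toMatrix_eq_top {k : Type} [Field k] (ρ : ResidualGaloisRep k)
    (habs : ρ.IsAbsolutelyIrreducible) (b : Basis (Fin 2) k ρ.V) :
    Submodule.span k (Set.range
      ((LinearMap.toMatrixAlgEquiv b).toMonoidHom.comp ρ.ρ)) = ⊤ := by
  refine span_eq_top (K := AlgebraicClosure k) _ fun W hW => ?_
  let bK := Algebra.TensorProduct.basis (AlgebraicClosure k) b
  let e := bK.equivFun
  have hstab : ∀ σ, ∀ x ∈ W.comap e.toLinearMap,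
      (ρ.baseChange (AlgebraicClosure k)).ρ σ x ∈ W.comap e.toLinearMap := by
    intro σ x hx
    show (bK.repr ((ρ.ρ σ).baseChange (AlgebraicClosure k) x) : Fin 2 → AlgebraicClosure k) ∈ W
    rw [← LinearMap.toMatrix_mulVec_repr bK bK, LinearMap.toMatrix_baseChange]
    exact hW σ _ hx
  rcases habs (W.comap e.toLinearMap) hstab with h | h
  · left
    refine (Submodule.eq_bot_iff W).mpr fun x hx => ?_
    have := (Submodule.eq_bot_iff _).mp h (e.symm x) (by simpa using hx)
    simpa using this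
  · right
    refine eq_top_iff.mpr fun x _ => ?_
    have : e.symm x ∈ W.comap e.toLinearMap := h ▸ Submodule.mem_top
    simpa using this

end FermatLib.Galois.Deform.Burnside

end
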