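import Mathlib
import Fermat.Prelude.Def_GaloisRep_Adic
import Fermat.Agent.Galois.Deform.Mat
import Fermat.Agent.Galois.Deform.TestAlg

/-!
# Matrices of representations with prescribed residual representation
-/

set_option autoImplicit false

noncomputable section

open scoped TensorProduct
open IsLocalRing Module

namespace FermatLib.Galois.Deform

/-- The matrices of a residual representation. -/
def rho0 {k : Type} [Field k] (ρbar : ResidualGaloisRep k) (b₀ : Basis (Fin 2) k ρbar.V) :
    GQ →* M2 k :=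
  (LinearMap.toMatrixAlgEquiv b₀).toMonoidHom.comp ρbar.ρ

variable {k : Type} [Field k] {A : Type} [CommRing A] [IsLocalRing A]
  (ψ : k →+* ResidueField A) (ρbar : ResidualGaloisRep k) (b₀ : Basis (Fin 2) k ρbar.V)

theorem residual_toAdic_isEquiv (M : GQ →* M2 A) (hM : MatCont M)
    (h : ∀ σ, (M σ).map (residue A) = (rho0 ρbar b₀ σ).map ψ) :
    (toAdic M hM).residual.IsEquiv (ρbar.baseChangeAlong ψ) := by
  letI : Algebra k (ResidueField A) := ψ.toAlgebra
  refine residual_isEquiv_of_toMatrix_eq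
    (Algebra.TensorProduct.basis (ResidueField A) (stdBasis M hM))
    (Algebra.TensorProduct.basis (ResidueField A) b₀) fun σ => ?_
  show LinearMap.toMatrix _ _ (((toAdic M hM).ρ σ).baseChange (ResidueField A)) =
    LinearMap.toMatrix _ _ ((ρbar.ρ σ).baseChange (ResidueField A))
  refine (LinearMap.toMatrix_baseChange (ResidueField A) _ _ _).trans ?_
  refine Eq.trans ?_ (LinearMap.toMatrix_baseChange (ResidueField A) _ _ _).symm
  rw [toMatrix_toAdic]
  exact h σ

theorem exists_matRep (ρA : GaloisRepAdic A)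
    (h : ρA.residual.IsEquiv (ρbar.baseChangeAlong ψ)) :
    ∃ (M : GQ →* M2 A) (hM : MatCont M), ρA.IsEquiv (toAdic M hM) ∧
      ∀ σ, (M σ).map (residue A) = (rho0 ρbar b₀ σ).map ψ := by
  obtain ⟨e⟩ := h
  letI : Algebra k (ResidueField A) := ψ.toAlgebra
  let b : Basis (Fin 2) A ρA.V := Module.finBasisOfFinrankEq A ρA.V ρA.finrank_eq
  let bA : Basis (Fin 2) (ResidueField A) ρA.residual.V :=
    Algebra.TensorProduct.basis (ResidueField A) b
  let bR : Basis (Fin 2) (ResidueField A) (ρbar.baseChangeAlong ψ).V :=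
    Algebra.TensorProduct.basis (ResidueField A) b₀
  have hA : ∀ σ, LinearMap.toMatrix bA bA (ρA.residual.ρ σ) = (matOf ρA b σ).map (residue A) :=
    fun σ => LinearMap.toMatrix_baseChange (ResidueField A) (ρA.ρ σ) b b
  have hR : ∀ σ, LinearMap.toMatrix bR bR ((ρbar.baseChangeAlong ψ).ρ σ) =
      (rho0 ρbar b₀ σ).map ψ :=
    fun σ => LinearMap.toMatrix_baseChange (ResidueField A) (ρbar.ρ σ) b₀ b₀
  set T := LinearMap.toMatrix bA bR e.toLinearEquiv.toLinearMap with hT
  have hTinv : LinearMap.toMatrix bR bA e.toLinearEquiv.symm.toLinearMap * T = 1 := by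
    rw [hT, ← LinearMap.toMatrix_comp]
    simp
  have hcomm : ∀ σ, T * (matOf ρA b σ).map (residue A) = (rho0 ρbar b₀ σ).map ψ * T := fun σ => by
    rw [hT, ← hA, ← hR, ← LinearMap.toMatrix_comp, ← LinearMap.toMatrix_comp]
    congr 1
    exact LinearMap.ext fun x => e.map_apply σ x
  choose P hP using fun i j => IsLocalRing.residue_surjective (T i j)
  have hPT : (residue A).mapMatrix (Matrix.of P) = T := by ext i j; exact hP i j
  have hPu : IsUnit (Matrix.of P) := by
    rw [Matrix.isUnit_iff_isUnit_det]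
    refine IsUnit.of_map (residue A) _ ?_
    rw [RingHom.map_det, hPT]
    exact (Matrix.isUnit_iff_isUnit_det _).mp (IsUnit.of_mul_eq_one_right _ hTinv)
  obtain ⟨u, hu⟩ := hPu
  obtain ⟨e1⟩ := isEquiv_toAdic_matOf ρA b
  obtain ⟨e2⟩ := isEquiv_toAdic_conjRep u (matCont_matOf ρA b)
  refine ⟨conjRep u (matOf ρA b), matCont_conjRep u (matCont_matOf ρA b), ⟨e1.trans e2⟩,
    fun σ => ?_⟩
  have hinv := congr_arg (residue A).mapMatrix u.mul_inv
  rw [map_mul, map_one, hu, hPT] at hinv
  show (residue A).mapMatrix (conjRep u (matOf ρA b) σ) = _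
  rw [conjRep_apply, map_mul, map_mul, hu, hPT]
  show T * (matOf ρA b σ).map (residue A) * _ = _
  rw [hcomm, mul_assoc, hinv, mul_one]

omit ψ in
theorem map_residue_eq_map_map {𝒪 : Type} [CommRing 𝒪] [IsLocalRing 𝒪] [Algebra 𝒪 A]
    [IsLocalHom (algebraMap 𝒪 A)] (π : A →ₐ[𝒪] ResidueField 𝒪) (x : A) :
    residue A x = ResidueField.map (algebraMap 𝒪 A) (π x) := by
  obtain ⟨c, hc⟩ := IsLocalRing.residue_surjective (π x)
  rw [← hc, ResidueField.map_residue, ← sub_eq_zero, ← map_sub, IsLocalRing.residue_eq_zero_iff,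
    ← res_eq_zero_iff π, map_sub, AlgHom.commutes, ResidueField.algebraMap_eq, hc, sub_self]

end FermatLib.Galois.Deform

end
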