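import Mathlib
import Fermat.Prelude.Def_GaloisRep_DeformationCondition
import Fermat.Agent.Galois.Deform.Adm
import Fermat.Agent.Galois.Deform.Residual

/-!
# The tangent space bounds first order admissible quotients
-/

set_option autoImplicit false

noncomputable section

open IsLocalRing GaloisRep Module

namespace FermatLib.Galois.Deform

theorem natCard_le_of_separating {A B H : Type} {T : Type 1} [Finite T] [Finite B] [Nonempty B]
    (f : H → T) (hf : Function.Injective f) (ev : H → A → B)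
    (hsep : ∀ a a', (∀ h, ev h a = ev h a') → a = a') :
    Nat.card A ≤ Nat.card B ^ Nat.card T := by
  haveI : Finite H := Finite.of_injective f hf
  refine (Nat.card_le_card_of_injective (fun a h => ev h a)
    (fun a a' h => hsep a a' (congr_fun h))).trans ?_
  rw [Nat.card_fun]
  exact Nat.pow_le_pow_right Nat.card_pos (Nat.card_le_card_of_injective f hf)

variable {𝒪 : Type} [CommRing 𝒪] [IsLocalRing 𝒪]

/-- The `𝒪`-algebra structure on the dual numbers of the residue field used by `TangentFinite`. -/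
@[reducible] def dualAlgebra (𝒪 : Type) [CommRing 𝒪] [IsLocalRing 𝒪] :
    Algebra 𝒪 (DualNumber (ResidueField 𝒪)) :=
  ((algebraMap (ResidueField 𝒪) (DualNumber (ResidueField 𝒪))).comp
    (algebraMap 𝒪 (ResidueField 𝒪))).toAlgebra

variable (𝒪) in
/-- The augmentation of the dual numbers. -/
def dualRes :
    letI := dualAlgebra 𝒪
    DualNumber (ResidueField 𝒪) →ₐ[𝒪] ResidueField 𝒪 :=
  letI := dualAlgebra 𝒪
  { (TrivSqZeroExt.fstHom (ResidueField 𝒪) (ResidueField 𝒪) (ResidueField 𝒪)).toRingHom with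
    commutes' := fun c => rfl }

variable [Finite (ResidueField 𝒪)]

theorem finite_dualNumber : Finite (DualNumber (ResidueField 𝒪)) :=
  Finite.of_injective (fun x => (TrivSqZeroExt.fst x, TrivSqZeroExt.snd x))
    fun _ _ h => TrivSqZeroExt.ext (congr_arg Prod.fst h) (congr_arg Prod.snd h)

theorem exists_dual_hom {A : Type} [CommRing A] [Algebra 𝒪 A] (π : A →ₐ[𝒪] ResidueField 𝒪)
    (hmul : ∀ a b, π a = 0 → π b = 0 → a * b = 0)
    (hO : ∀ c ∈ maximalIdeal 𝒪, algebraMap 𝒪 A c = 0) (a : A) (ha : a ≠ 0) :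
    letI := dualAlgebra 𝒪
    ∃ φ : A →ₐ[𝒪] DualNumber (ResidueField 𝒪), φ a ≠ 0 := by
  let s : ResidueField 𝒪 →+* A := Ideal.Quotient.lift (maximalIdeal 𝒪) (algebraMap 𝒪 A) hO
  have hs : ∀ c, s (residue 𝒪 c) = algebraMap 𝒪 A c := fun c => rfl
  have hπs : ∀ x, π (s x) = x := fun x => by
    obtain ⟨c, rfl⟩ := IsLocalRing.residue_surjective x
    rw [hs, AlgHom.commutes, ResidueField.algebraMap_eq]
  letI : Algebra (ResidueField 𝒪) A := s.toAlgebra
  letI := dualAlgebra 𝒪
  have hsmul : ∀ (c : ResidueField 𝒪) (x : A), c • x = s c * x := fun c x => rfl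
  obtain ⟨l, hl1, hla⟩ : ∃ l : A →ₗ[ResidueField 𝒪] ResidueField 𝒪, l 1 = 0 ∧ (π a = 0 → l a ≠ 0) := by
    by_cases hπa : π a = 0
    · have hnot : a ∉ Submodule.span (ResidueField 𝒪) {(1 : A)} := fun h => by
        obtain ⟨c, hc⟩ := Submodule.mem_span_singleton.mp h
        rw [hsmul, mul_one] at hc
        refine ha ?_
        have : c = 0 := by rw [← hπs c, hc, hπa]
        rw [← hc, this, map_zero]
      obtain ⟨l, hl, hker⟩ := Submodule.exists_dual_map_eq_bot_of_notMem hnot inferInstance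
      refine ⟨l, ?_, fun _ => hl⟩
      have : l 1 ∈ (Submodule.span (ResidueField 𝒪) {(1 : A)}).map l :=
        Submodule.mem_map_of_mem (Submodule.mem_span_singleton_self _)
      rw [hker] at this
      exact this
    · exact ⟨0, rfl, fun h => absurd h hπa⟩
  have hls : ∀ (c : ResidueField 𝒪) x, l (s c * x) = c * l x := fun c x => by
    rw [← hsmul, map_smul, smul_eq_mul]
  have hlc : ∀ c, l (s c) = 0 := fun c => by
    rw [← mul_one (s c), hls, hl1, mul_zero]
  have hlmul : ∀ x y, l (x * y) = π x * l y + π y * l x := fun x y => by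
    have h0 : (x - s (π x)) * (y - s (π y)) = 0 :=
      hmul _ _ (by rw [map_sub, hπs, sub_self]) (by rw [map_sub, hπs, sub_self])
    have : x * y = s (π x) * y + s (π y) * x - s (π x * π y) := by
      rw [map_mul]; linear_combination h0
    rw [this, map_sub, map_add, hls, hls, hlc, sub_zero]
  let φ : A →ₐ[𝒪] DualNumber (ResidueField 𝒪) :=
    { toFun := fun x => TrivSqZeroExt.inl (π x) + TrivSqZeroExt.inr (l x)
      map_one' := by
        apply TrivSqZeroExt.ext <;> simp [hl1]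
      map_mul' := fun x y => by
        apply TrivSqZeroExt.ext
        · simp
        · simp [hlmul, mul_comm (π y)]
      map_zero' := by apply TrivSqZeroExt.ext <;> simp
      map_add' := fun x y => by
        apply TrivSqZeroExt.ext <;> simp
      commutes' := fun c => by
        show _ = TrivSqZeroExt.inl (residue 𝒪 c)
        have h1 : l (algebraMap 𝒪 A c) = 0 := by rw [← hs, hlc]
        have h2 : π (algebraMap 𝒪 A c) = residue 𝒪 c := π.commutes c
        apply TrivSqZeroExt.ext <;> simp [h1, h2] }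
  refine ⟨φ, fun h => ?_⟩
  have h1 := congr_arg TrivSqZeroExt.fst h
  have h2 := congr_arg TrivSqZeroExt.snd h
  simp [φ] at h1 h2
  exact hla h1 h2

variable {𝒟 : Cond 𝒪} (ρbar : ResidualGaloisRep (ResidueField 𝒪))
  (b₀ : Basis (Fin 2) (ResidueField 𝒪) ρbar.V)

/-- First order admissible quotients have bounded cardinality. -/
theorem exists_bound_of_tangentFinite (h𝒟 : IsDeformationCondition 𝒪 𝒟)
    (hfin : TangentFinite 𝒪 ρbar 𝒟) :
    ∃ N : ℕ, ∀ I : Ideal (TrPoly 𝒪), Adm 𝒟 (rho0 ρbar b₀) I →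
      RingHom.ker (trHom (𝒪 := 𝒪) (rho0 ρbar b₀)) ^ 2 ≤ I →
      (maximalIdeal 𝒪).map (algebraMap 𝒪 (TrPoly 𝒪)) ≤ I →
      Nat.card (TrPoly 𝒪 ⧸ I) ≤ N := by
  letI := dualAlgebra 𝒪
  letI : Algebra (ResidueField 𝒪) (ResidueField (DualNumber (ResidueField 𝒪))) :=
    ((IsLocalRing.residue (DualNumber (ResidueField 𝒪))).comp
      (algebraMap (ResidueField 𝒪) (DualNumber (ResidueField 𝒪)))).toAlgebra
  unfold TangentFinite at hfin
  haveI := finite_dualNumber (𝒪 := 𝒪)
  let r : Setoid {ρ : GaloisRepAdic (DualNumber (ResidueField 𝒪)) //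
      𝒟 ρ ∧ ρ.residual.IsEquiv (ρbar.baseChange (ResidueField (DualNumber (ResidueField 𝒪)))) } :=
    ⟨fun ρ ρ' => ρ.1.IsEquiv ρ'.1, ⟨fun ρ => ⟨GaloisRepAdic.Equiv.refl ρ.1⟩,
      fun ⟨e⟩ => ⟨e.symm⟩, fun ⟨e⟩ ⟨e'⟩ => ⟨e.trans e'⟩⟩⟩
  haveI : Finite (Quotient r) := hfin
  refine ⟨Nat.card (DualNumber (ResidueField 𝒪)) ^ Nat.card (Quotient r), fun I hI hsq hO => ?_⟩
  obtain ⟨_, M, π, hart, hπ, hD, htr⟩ := hI
  have hBt : IsArtinianTestAlgebra 𝒪 (DualNumber (ResidueField 𝒪)) :=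
    isTestAlgebra_of_res (dualRes 𝒪) inferInstance
  have hD' : ∀ φ : (TrPoly 𝒪 ⧸ I) →ₐ[𝒪] DualNumber (ResidueField 𝒪),
      IsDef 𝒟 (mapRep (φ : (TrPoly 𝒪 ⧸ I) →+* DualNumber (ResidueField 𝒪)) M) :=
    fun φ => hD.map h𝒟 (isTestAlgebra_of_res π hart) hBt φ
  have hres : ∀ φ : (TrPoly 𝒪 ⧸ I) →ₐ[𝒪] DualNumber (ResidueField 𝒪),
      (toAdic _ (hD' φ).choose).residual.IsEquiv
        (ρbar.baseChange (ResidueField (DualNumber (ResidueField 𝒪)))) := fun φ => by
    refine residual_toAdic_isEquiv _ ρbar b₀ _ _ fun σ => ?_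
    ext i j
    rw [Matrix.map_apply, Matrix.map_apply, mapRep_apply, Matrix.map_apply, ← hπ σ,
      Matrix.map_apply, ← res_unique ((dualRes 𝒪).comp φ) π, RingHom.comp_apply, ← sub_eq_zero,
      ← map_sub, IsLocalRing.residue_eq_zero_iff, ← res_eq_zero_iff (dualRes 𝒪), map_sub,
      sub_eq_zero]
    rfl
  refine natCard_le_of_separating (B := DualNumber (ResidueField 𝒪))
    (fun φ : (TrPoly 𝒪 ⧸ I) →ₐ[𝒪] DualNumber (ResidueField 𝒪) =>
      Quotient.mk r ⟨toAdic _ (hD' φ).choose, (hD' φ).choose_spec, hres φ⟩)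
    (fun φ φ' h => ?_) (fun φ a => φ a) (fun a a' h => ?_)
  · refine Ideal.Quotient.algHom_ext 𝒪 (MvPolynomial.algHom_ext fun σ => ?_)
    have := trace_eq_of_isEquiv_toAdic (hM := (hD' φ).choose) (hM' := (hD' φ').choose)
      (Quotient.exact h) σ
    rw [trace_mapRep, trace_mapRep, htr] at this
    exact this
  · by_contra hne
    have hker : ∀ x, π x = 0 → ∀ y, π y = 0 → x * y = 0 := fun x hx y hy => by
      obtain ⟨p, rfl⟩ := Ideal.Quotient.mk_surjective x
      obtain ⟨q, rfl⟩ := Ideal.Quotient.mk_surjective y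
      rw [← map_mul, Ideal.Quotient.eq_zero_iff_mem]
      refine hsq ?_
      rw [sq]
      refine Ideal.mul_mem_mul ?_ ?_
      · rw [RingHom.mem_ker, ← res_comp_mk _ hπ htr]; exact hx
      · rw [RingHom.mem_ker, ← res_comp_mk _ hπ htr]; exact hy
    obtain ⟨φ, hφ⟩ := exists_dual_hom π (fun x y hx hy => hker x hx y hy)
      (fun c hc => Ideal.Quotient.eq_zero_iff_mem.mpr (hO (Ideal.mem_map_of_mem _ hc)))
      (a - a') (sub_ne_zero.mpr hne)
    exact hφ (by rw [map_sub, h φ, sub_self])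

end FermatLib.Galois.Deform

end
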