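import Mathlib

/-!
# The tower of least ideals

`Q` is a family of ideals of an `𝒪`-algebra `P`, stable under intersection and enlargement below
the kernel of `ε : P → k`, with finite quotients and bounded first order quotients.
-/

set_option autoImplicit false

noncomputable section

open IsLocalRing

namespace FermatLib.Galois.Deform.Tower

variable {P : Type} [CommRing P]

/-- A family of ideals closed under intersections with boundedly many cosets has a least member. -/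
theorem exists_least (Q : Ideal P → Prop) (hne : ∃ I, Q I)
    (hinf : ∀ I J, Q I → Q J → Q (I ⊓ J)) (hfin : ∀ I, Q I → Finite (P ⧸ I)) (N : ℕ)
    (hN : ∀ I, Q I → Nat.card (P ⧸ I) ≤ N) : ∃ I, Q I ∧ ∀ J, Q J → I ≤ J := by
  obtain ⟨I₀, hI₀⟩ := hne
  obtain ⟨_, ⟨I, hI, rfl⟩, hmax⟩ := Set.Finite.exists_maximalFor id
    ((fun I => Nat.card (P ⧸ I)) '' {I | Q I})
    ((Set.finite_Iic N).subset (by rintro _ ⟨I, hI, rfl⟩; exact hN I hI)) ⟨_, I₀, hI₀, rfl⟩
  refine ⟨I, hI, fun J hJ => ?_⟩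
  haveI := hfin _ (hinf I J hI hJ)
  haveI := hfin I hI
  have hsurj : Function.Surjective (Ideal.Quotient.factor (inf_le_left : I ⊓ J ≤ I)) :=
    Ideal.Quotient.factor_surjective _
  have h1 : Nat.card (P ⧸ I) ≤ Nat.card (P ⧸ I ⊓ J) :=
    Nat.card_le_card_of_surjective _ hsurj
  have h2 : Nat.card (P ⧸ I ⊓ J) ≤ Nat.card (P ⧸ I) := hmax ⟨_, hinf I J hI hJ, rfl⟩ h1
  have hbij : Function.Bijective (Ideal.Quotient.factor (inf_le_left : I ⊓ J ≤ I)) :=
    hsurj.bijective_of_nat_card_le h2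
  intro x hx
  have : Ideal.Quotient.mk (I ⊓ J) x = 0 := hbij.1 (by
    rw [Ideal.Quotient.factor_mk, map_zero]
    exact Ideal.Quotient.eq_zero_iff_mem.mpr hx)
  exact (Ideal.Quotient.eq_zero_iff_mem.mp this).2

variable {𝒪 : Type} [CommRing 𝒪] [IsLocalRing 𝒪] [Algebra 𝒪 P]
  (ε : P →ₐ[𝒪] ResidueField 𝒪)

theorem algebraMap_mem_ker {c : 𝒪} (hc : c ∈ maximalIdeal 𝒪) :
    algebraMap 𝒪 P c ∈ RingHom.ker ε := by
  rw [RingHom.mem_ker, AlgHom.commutes, ResidueField.algebraMap_eq,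
    IsLocalRing.residue_eq_zero_iff]
  exact hc

theorem exists_const (a : P) : ∃ c : 𝒪, a - algebraMap 𝒪 P c ∈ RingHom.ker ε := by
  obtain ⟨c, hc⟩ := IsLocalRing.residue_surjective (ε a)
  exact ⟨c, by rw [RingHom.mem_ker, map_sub, AlgHom.commutes, ResidueField.algebraMap_eq, hc,
    sub_self]⟩

/-- Elements generating `ker ε` modulo `𝔪_𝒪`, `I` and squares generate `P/I` as an algebra. -/
theorem aeval_surjective {r : ℕ} (x : Fin r → P) (hx : ∀ i, x i ∈ RingHom.ker ε) (I : Ideal P)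
    (hgen : RingHom.ker ε ≤ Ideal.span (Set.range x) ⊔ (maximalIdeal 𝒪).map (algebraMap 𝒪 P) ⊔
      (I ⊔ RingHom.ker ε ^ 2))
    (hnil : ∃ N, RingHom.ker ε ^ N ≤ I) :
    Function.Surjective ((Ideal.Quotient.mkₐ 𝒪 I).comp (MvPolynomial.aeval x)) := by
  set M := RingHom.ker ε
  set B := (MvPolynomial.aeval x : MvPolynomial (Fin r) 𝒪 →ₐ[𝒪] P).range
  have hBx : ∀ i, x i ∈ B := fun i => ⟨MvPolynomial.X i, MvPolynomial.aeval_X x i⟩
  have h1 : ∀ v ∈ M, ∃ b ∈ B, b ∈ M ∧ v - b ∈ I ⊔ M ^ 2 := by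
    intro v hv
    have key : ∀ g ∈ B, g ∈ M → ∀ a : P, ∃ b ∈ B, b ∈ M ∧ a * g - b ∈ I ⊔ M ^ 2 := by
      intro g hgB hgM a
      obtain ⟨c, hc⟩ := exists_const ε a
      refine ⟨algebraMap 𝒪 P c * g, B.mul_mem (B.algebraMap_mem c) hgB,
        M.mul_mem_left _ hgM, Ideal.mem_sup_right ?_⟩
      rw [← sub_mul, sq]
      exact Ideal.mul_mem_mul hc hgM
    let K : Ideal P :=
      { carrier := {v | ∀ a : P, ∃ b ∈ B, b ∈ M ∧ a * v - b ∈ I ⊔ M ^ 2}
        zero_mem' := fun a => ⟨0, B.zero_mem, M.zero_mem, by simp⟩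
        add_mem' := fun {u w} hu hw a => by
          obtain ⟨b, hb, hbM, hb'⟩ := hu a
          obtain ⟨d, hd, hdM, hd'⟩ := hw a
          refine ⟨b + d, B.add_mem hb hd, M.add_mem hbM hdM, ?_⟩
          have := Ideal.add_mem _ hb' hd'
          rwa [show a * u - b + (a * w - d) = a * (u + w) - (b + d) by ring] at this
        smul_mem' := fun e u hu a => by
          obtain ⟨b, hb, hbM, hb'⟩ := hu (a * e)
          exact ⟨b, hb, hbM, by rwa [smul_eq_mul, ← mul_assoc]⟩ }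
    have hK : Ideal.span (Set.range x) ⊔ (maximalIdeal 𝒪).map (algebraMap 𝒪 P) ⊔ (I ⊔ M ^ 2) ≤ K := by
      refine sup_le (sup_le ?_ ?_) ?_
      · rw [Ideal.span_le]
        rintro _ ⟨i, rfl⟩
        exact key _ (hBx i) (hx i)
      · rw [Ideal.map_le_iff_le_comap]
        exact fun c hc => key _ (B.algebraMap_mem c) (algebraMap_mem_ker ε hc)
      · exact fun u hu a => ⟨0, B.zero_mem, M.zero_mem, by
          rw [sub_zero]; exact Ideal.mul_mem_left _ _ hu⟩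
    have := hK (hgen hv) 1
    rwa [one_mul] at this
  have hj : ∀ j : ℕ, ∀ z ∈ M ^ j, ∃ b ∈ B, b ∈ M ^ j ∧ z - b ∈ I ⊔ M ^ (j + 1) := by
    intro j
    induction j with
    | zero =>
      intro z _
      obtain ⟨c, hc⟩ := exists_const ε z
      exact ⟨algebraMap 𝒪 P c, B.algebraMap_mem c, by simp,
        Ideal.mem_sup_right (by rwa [zero_add, pow_one])⟩
    | succ j ih =>
      intro z hz
      rw [pow_succ] at hz
      refine Submodule.mul_induction_on hz (fun u hu v hv => ?_) (fun u w hu hw => ?_)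
      · obtain ⟨b, hb, hbM, hb'⟩ := ih u hu
        obtain ⟨d, hd, hdM, hd'⟩ := h1 v hv
        refine ⟨b * d, B.mul_mem hb hd, by rw [pow_succ]; exact Ideal.mul_mem_mul hbM hdM, ?_⟩
        rw [show u * v - b * d = (u - b) * v + b * (v - d) by ring]
        refine Ideal.add_mem _ ?_ ?_
        · have := Ideal.mul_mem_mul hb' hv
          rw [Ideal.sup_mul, ← pow_succ] at this
          exact SetLike.le_def.mp (sup_le_sup_right Ideal.mul_le_left _) this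
        · have := Ideal.mul_mem_mul hbM hd'
          rw [Ideal.mul_sup, ← pow_add] at this
          exact SetLike.le_def.mp (sup_le_sup_right Ideal.mul_le_right _) this
      · obtain ⟨b, hb, hbM, hb'⟩ := hu
        obtain ⟨d, hd, hdM, hd'⟩ := hw
        refine ⟨b + d, B.add_mem hb hd, Ideal.add_mem _ hbM hdM, ?_⟩
        have := Ideal.add_mem _ hb' hd'
        rwa [show u - b + (w - d) = u + w - (b + d) by ring] at this
  have hall : ∀ (j : ℕ) (z : P), ∃ b ∈ B, z - b ∈ I ⊔ M ^ j := by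
    intro j
    induction j with
    | zero => exact fun z => ⟨0, B.zero_mem, by simp⟩
    | succ j ih =>
      intro z
      obtain ⟨b, hb, hb'⟩ := ih z
      obtain ⟨i, hi, w, hw, hiw⟩ := Submodule.mem_sup.mp hb'
      obtain ⟨d, hd, -, hd'⟩ := hj j w hw
      refine ⟨b + d, B.add_mem hb hd, ?_⟩
      rw [show z - (b + d) = i + (w - d) by linear_combination -hiw]
      exact Ideal.add_mem _ (Ideal.mem_sup_left hi) hd'
  intro q
  obtain ⟨z, rfl⟩ := Ideal.Quotient.mk_surjective q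
  obtain ⟨N, hN⟩ := hnil
  obtain ⟨b, ⟨t, rfl⟩, hb⟩ := hall N z
  refine ⟨t, ?_⟩
  rw [AlgHom.comp_apply, Ideal.Quotient.mkₐ_eq_mk, eq_comm, Ideal.Quotient.eq]
  exact (sup_le le_rfl hN : I ⊔ M ^ N ≤ I) hb

/-- The least members of the levels, with uniform generators. -/
theorem exists_tower [Finite (ResidueField 𝒪)] [IsNoetherianRing 𝒪] (Q : Ideal P → Prop)
    (hfin : ∀ I, Q I → Finite (P ⧸ I)) (hle : ∀ I, Q I → I ≤ RingHom.ker ε)
    (hnil : ∀ I, Q I → ∃ N, RingHom.ker ε ^ N ≤ I)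
    (hinf : ∀ I J, Q I → Q J → Q (I ⊓ J))
    (hmono : ∀ I I', Q I → I ≤ I' → I' ≤ RingHom.ker ε → Q I')
    (hbase : Q (RingHom.ker ε))
    (hbound : ∃ N : ℕ, ∀ I, Q I → RingHom.ker ε ^ 2 ≤ I →
      (maximalIdeal 𝒪).map (algebraMap 𝒪 P) ≤ I → Nat.card (P ⧸ I) ≤ N) :
    ∃ (r : ℕ) (x : Fin r → P) (J : ℕ → Ideal P),
      (∀ i, x i ∈ RingHom.ker ε) ∧ (∀ n, Q (J n)) ∧ (∀ n, RingHom.ker ε ^ (n + 1) ≤ J n) ∧
      (∀ n I, Q I → RingHom.ker ε ^ (n + 1) ≤ I → J n ≤ I) ∧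
      (∀ n, Function.Surjective ((Ideal.Quotient.mkₐ 𝒪 (J n)).comp (MvPolynomial.aeval x))) := by
  set M := RingHom.ker ε with hM
  set mP := (maximalIdeal 𝒪).map (algebraMap 𝒪 P)
  have hmP : mP ≤ M := Ideal.map_le_iff_le_comap.mpr fun c hc => algebraMap_mem_ker ε hc
  obtain ⟨N, hN⟩ := hbound
  obtain ⟨I₁, ⟨hQ₁, hI₁⟩, hleast₁⟩ := exists_least (fun I => Q I ∧ M ^ 2 ⊔ mP ≤ I)
    ⟨M, hbase, sup_le (Ideal.pow_le_self two_ne_zero) hmP⟩
    (fun I J hI hJ => ⟨hinf I J hI.1 hJ.1, le_inf hI.2 hJ.2⟩) (fun I hI => hfin I hI.1) N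
    (fun I hI => hN I hI.1 (le_sup_left.trans hI.2) (le_sup_right.trans hI.2))
  haveI := hfin I₁ hQ₁
  choose x hx hxI using fun i : Fin (Nat.card (P ⧸ I₁)) =>
    (show ∃ p, p ∈ M ∧ ∀ q ∈ M, Ideal.Quotient.mk I₁ q = (Finite.equivFin (P ⧸ I₁)).symm i →
        q - p ∈ I₁ by
      by_cases h : ∃ q ∈ M, Ideal.Quotient.mk I₁ q = (Finite.equivFin (P ⧸ I₁)).symm i
      · obtain ⟨p, hp, hp'⟩ := h
        exact ⟨p, hp, fun q _ hq => Ideal.Quotient.eq.mp (hq.trans hp'.symm)⟩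
      · exact ⟨0, M.zero_mem, fun q hq hq' => absurd ⟨q, hq, hq'⟩ h⟩)
  have hgen : ∀ I, Q I → M ≤ Ideal.span (Set.range x) ⊔ mP ⊔ (I ⊔ M ^ 2) := by
    intro I hI
    have hI' : I₁ ≤ I ⊔ (M ^ 2 ⊔ mP) := hleast₁ _
      ⟨hmono I _ hI le_sup_left (sup_le (hle I hI)
        (sup_le (Ideal.pow_le_self two_ne_zero) hmP)), le_sup_right⟩
    intro q hq
    have h1 : q - x (Finite.equivFin (P ⧸ I₁) (Ideal.Quotient.mk I₁ q)) ∈ I₁ :=
      hxI _ q hq (by simp)
    have h2 : x (Finite.equivFin (P ⧸ I₁) (Ideal.Quotient.mk I₁ q)) ∈ Ideal.span (Set.range x) :=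
      Ideal.subset_span ⟨_, rfl⟩
    have h3 : Ideal.span (Set.range x) ⊔ (I ⊔ (M ^ 2 ⊔ mP)) =
        Ideal.span (Set.range x) ⊔ mP ⊔ (I ⊔ M ^ 2) := by
      simp only [sup_assoc, sup_comm, sup_left_comm]
    rw [← h3, ← add_sub_cancel (x (Finite.equivFin (P ⧸ I₁) (Ideal.Quotient.mk I₁ q))) q]
    exact Submodule.add_mem_sup h2 (hI' h1)
  have hsurj : ∀ I, Q I →
      Function.Surjective ((Ideal.Quotient.mkₐ 𝒪 I).comp (MvPolynomial.aeval x)) :=
    fun I hI => aeval_surjective ε x hx I (hgen I hI) (hnil I hI)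
  let T := MvPolynomial (Fin (Nat.card (P ⧸ I₁))) 𝒪
  let εT : T →ₐ[𝒪] ResidueField 𝒪 := ε.comp (MvPolynomial.aeval x)
  haveI : Finite (T ⧸ RingHom.ker εT) :=
    Finite.of_injective (Ideal.kerLiftAlg εT) (Ideal.kerLiftAlg_injective εT)
  have hlev : ∀ n, ∃ J, (Q J ∧ M ^ (n + 1) ≤ J) ∧ ∀ I, Q I ∧ M ^ (n + 1) ≤ I → J ≤ I := by
    intro n
    haveI : Finite (T ⧸ RingHom.ker εT ^ (n + 1)) :=
      Ideal.finite_quotient_pow (IsNoetherian.noetherian _) _
    refine exists_least _ ⟨M, hbase, Ideal.pow_le_self n.succ_ne_zero⟩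
      (fun I J hI hJ => ⟨hinf I J hI.1 hJ.1, le_inf hI.2 hJ.2⟩) (fun I hI => hfin I hI.1)
      (Nat.card (T ⧸ RingHom.ker εT ^ (n + 1))) fun I hI => ?_
    have hker : RingHom.ker εT ^ (n + 1) ≤
        RingHom.ker ((Ideal.Quotient.mkₐ 𝒪 I).comp (MvPolynomial.aeval x) : T →ₐ[𝒪] _) := by
      have hcm : RingHom.ker εT = M.comap (MvPolynomial.aeval x : T →ₐ[𝒪] P) := rfl
      intro t ht
      rw [RingHom.mem_ker, AlgHom.comp_apply, Ideal.Quotient.mkₐ_eq_mk,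
        Ideal.Quotient.eq_zero_iff_mem]
      rw [hcm] at ht
      exact hI.2 (Ideal.le_comap_pow _ _ ht)
    exact Nat.card_le_card_of_surjective (Ideal.Quotient.liftₐ _ _ hker)
      (Ideal.Quotient.lift_surjective_of_surjective _ _ (hsurj I hI.1))
  choose J hJ hJleast using hlev
  exact ⟨_, x, J, hx, fun n => (hJ n).1, fun n => (hJ n).2,
    fun n I hI hI' => hJleast n I ⟨hI, hI'⟩, fun n => hsurj _ (hJ n).1⟩

end FermatLib.Galois.Deform.Tower

end
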