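import Mathlib
import Fermat.Prelude.Def_GaloisRep_DeformationCondition
import Fermat.Agent.Galois.Deform.Adm
import Fermat.Agent.Galois.Deform.Residual

/-!
# The universal property of the limit deformation
-/

set_option autoImplicit false

noncomputable section

open IsLocalRing GaloisRep

namespace FermatLib.Galois.Deform

variable {𝒪 : Type} [CommRing 𝒪] [IsLocalRing 𝒪] [Finite (ResidueField 𝒪)] {𝒟 : Cond 𝒪}
  {ρ₀ : GQ →* M2 (ResidueField 𝒪)}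
  {R : Type} [CommRing R] [IsLocalRing R] [Algebra 𝒪 R]
  (π : R →ₐ[𝒪] ResidueField 𝒪) {J : ℕ → Ideal (TrPoly 𝒪)}
  (hanti : ∀ n, J (n + 1) ≤ J n)
  (Φ : ∀ n, R →ₐ[𝒪] (TrPoly 𝒪 ⧸ J n))
  (hc : ∀ n, (Ideal.Quotient.factorₐ 𝒪 (hanti n)).comp (Φ (n + 1)) = Φ n)
  (hker : ∀ n, RingHom.ker (Φ n) = maximalIdeal R ^ (n + 1))
  (M : GQ →* M2 R) (htr : ∀ n σ, Φ n (M σ).trace = Ideal.Quotient.mk (J n) (MvPolynomial.X σ))
  {A : Type} [CommRing A] [IsLocalRing A] [Algebra 𝒪 A]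

include hanti hc in
omit [IsLocalRing 𝒪] [Finite (ResidueField 𝒪)] in
theorem exists_common_rep {m n : ℕ} (hmn : m ≤ n) (r : R) :
    ∃ p, Φ n r = Ideal.Quotient.mk (J n) p ∧ Φ m r = Ideal.Quotient.mk (J m) p := by
  obtain ⟨p, hp⟩ := Ideal.Quotient.mk_surjective (Φ n r)
  refine ⟨p, hp.symm, ?_⟩
  induction hmn with
  | refl => exact hp.symm
  | step h ih =>
    refine ih ?_
    rw [← hc, AlgHom.comp_apply, ← hp]
    rfl

include π hker htr in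
theorem algHom_ext_of_trace [IsHausdorff (maximalIdeal A) A] (πA : A →ₐ[𝒪] ResidueField 𝒪)
    (φ φ' : R →ₐ[𝒪] A) (h : ∀ σ, φ (M σ).trace = φ' (M σ).trace) : φ = φ' := by
  refine AlgHom.ext fun r => sub_eq_zero.mp ?_
  refine IsHausdorff.haus (I := maximalIdeal A) inferInstance _ fun n => ?_
  rw [SModEq.zero, smul_eq_mul, Ideal.mul_top]
  refine Ideal.pow_le_pow_right n.le_succ ?_
  have hcomp : (Φ n).comp (trHom M) = Ideal.Quotient.mkₐ 𝒪 (J n) :=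
    MvPolynomial.algHom_ext fun σ => by rw [AlgHom.comp_apply, trHom_X, htr]; rfl
  obtain ⟨p, hp⟩ := Ideal.Quotient.mk_surjective (Φ n r)
  have hmem : r - trHom M p ∈ maximalIdeal R ^ (n + 1) := by
    rw [← hker, RingHom.mem_ker, map_sub, ← AlgHom.comp_apply, hcomp, Ideal.Quotient.mkₐ_eq_mk,
      hp, sub_self]
  have heq : φ (trHom M p) = φ' (trHom M p) := by
    rw [← AlgHom.comp_apply, ← AlgHom.comp_apply]
    refine AlgHom.congr_fun (MvPolynomial.algHom_ext fun σ => ?_) p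
    rw [AlgHom.comp_apply, AlgHom.comp_apply, trHom_X, h]
  have key : ∀ ψ : R →ₐ[𝒪] A, ψ (r - trHom M p) ∈ maximalIdeal A ^ (n + 1) := fun ψ => by
    haveI := isLocalHom_of_res πA ψ
    have h1 := Ideal.mem_map_of_mem (ψ : R →+* A) hmem
    rw [Ideal.map_pow] at h1
    exact Ideal.pow_right_mono (Ideal.map_le_iff_le_comap.mpr fun y hy =>
      Ideal.mem_comap.mpr (map_nonunit (ψ : R →+* A) y hy)) _ h1
  have := Ideal.sub_mem _ (key φ) (key φ')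
  rwa [map_sub, map_sub, heq, sub_sub_sub_cancel_right] at this

variable [IsNoetherianRing A] [IsAdicComplete (maximalIdeal A) A]

theorem exists_level_algebra (πA : A →ₐ[𝒪] ResidueField 𝒪) (n : ℕ) :
    ∃ (_ : IsLocalRing (A ⧸ maximalIdeal A ^ (n + 1)))
      (_ : (A ⧸ maximalIdeal A ^ (n + 1)) →ₐ[𝒪] ResidueField 𝒪),
      IsArtinianRing (A ⧸ maximalIdeal A ^ (n + 1)) := by
  have hkerA : RingHom.ker πA = maximalIdeal A := by
    ext a; rw [RingHom.mem_ker, res_eq_zero_iff]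
  haveI : Finite (A ⧸ maximalIdeal A) := by
    rw [← hkerA]
    exact Finite.of_injective (Ideal.kerLiftAlg πA) (Ideal.kerLiftAlg_injective πA)
  haveI : Finite (A ⧸ maximalIdeal A ^ (n + 1)) :=
    Ideal.finite_quotient_pow (IsNoetherian.noetherian _) _
  let π' : (A ⧸ maximalIdeal A ^ (n + 1)) →ₐ[𝒪] ResidueField 𝒪 :=
    Ideal.Quotient.liftₐ _ πA fun a ha =>
      (res_eq_zero_iff πA a).mpr (Ideal.pow_le_self n.succ_ne_zero ha)
  have hnil : ∀ a, π' a = 0 → IsNilpotent a := fun a ha => by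
    obtain ⟨b, rfl⟩ := Ideal.Quotient.mk_surjective a
    refine ⟨n + 1, ?_⟩
    rw [← map_pow, Ideal.Quotient.eq_zero_iff_mem]
    exact Ideal.pow_mem_pow ((res_eq_zero_iff πA b).mp ha) _
  exact ⟨isLocalRing_of_res π' hnil, π', inferInstance⟩

theorem le_ker_trHom_of_level (h𝒟 : IsDeformationCondition 𝒪 𝒟)
    (hspan : Submodule.span (ResidueField 𝒪) (Set.range ρ₀) = ⊤)
    (hleast : ∀ n I, Adm 𝒟 ρ₀ I → RingHom.ker (trHom (𝒪 := 𝒪) ρ₀) ^ (n + 1) ≤ I → J n ≤ I)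
    (πA : A →ₐ[𝒪] ResidueField 𝒪) (MA : GQ →* M2 A) (hMA : MatCont MA)
    (hπA : ∀ σ, (MA σ).map πA = ρ₀ σ) (hD : 𝒟 (toAdic MA hMA)) (n : ℕ)
    {B : Type} [CommRing B] [IsLocalRing B] [Algebra 𝒪 B] (hart : IsArtinianRing B)
    (π' : B →ₐ[𝒪] ResidueField 𝒪) (q : A →ₐ[𝒪] B) (hq : Function.Surjective q)
    (hkill : ∀ a ∈ maximalIdeal A ^ (n + 1), q a = 0) :
    J n ≤ RingHom.ker (q.comp (trHom (𝒪 := 𝒪) MA)) := by
  have hmk : π'.comp q = πA := res_unique _ _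
  have hlmk := isLocalHom_of_res π' q
  have hB := isTestAlgebra_of_res π' hart
  have hD' := ((h𝒟.iff_forall_surjective (isLocalHom_algebraMap_of_res πA)
    (residue_surjective_of_res πA) (toAdic MA hMA)).mp hD) hB q hlmk hq
  have hdef : IsDef 𝒟 (mapRep (q : A →+* B) MA) :=
    ⟨matCont_mapRep _ hlmk hMA,
      h𝒟.of_isEquiv hB (isEquiv_baseChangeAlong_toAdic _ hlmk MA hMA) hD'⟩
  have hres : ∀ σ, (mapRep (q : A →+* B) MA σ).map π' = ρ₀ σ := fun σ => by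
    rw [← hπA σ, ← hmk]; rfl
  rw [comp_trHom]
  refine hleast n _ (adm_ker_trHom h𝒟 hspan hart π' (mapRep (q : A →+* B) MA) hres hdef) ?_
  rw [← comp_trHom]
  intro p hp
  rw [RingHom.mem_ker, AlgHom.comp_apply]
  refine hkill _ ?_
  have hle : RingHom.ker (trHom (𝒪 := 𝒪) ρ₀) ≤ (maximalIdeal A).comap (trHom (𝒪 := 𝒪) MA) := by
    intro x hx
    rw [Ideal.mem_comap, ← res_eq_zero_iff πA, ← AlgHom.comp_apply, comp_trHom,
      show mapRep (πA : A →+* ResidueField 𝒪) MA = ρ₀ from MonoidHom.ext hπA]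
    exact hx
  exact Ideal.le_comap_pow _ _ (Ideal.pow_right_mono hle _ hp)

/-- At each level, the traces of a deformation over a complete ring define a map out of `J n`. -/
theorem trHom_mem_pow (h𝒟 : IsDeformationCondition 𝒪 𝒟)
    (hspan : Submodule.span (ResidueField 𝒪) (Set.range ρ₀) = ⊤)
    (hleast : ∀ n I, Adm 𝒟 ρ₀ I → RingHom.ker (trHom (𝒪 := 𝒪) ρ₀) ^ (n + 1) ≤ I → J n ≤ I)
    (πA : A →ₐ[𝒪] ResidueField 𝒪) (MA : GQ →* M2 A) (hMA : MatCont MA)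
    (hπA : ∀ σ, (MA σ).map πA = ρ₀ σ) (hD : 𝒟 (toAdic MA hMA)) (n : ℕ) :
    ∀ p ∈ J n, trHom (𝒪 := 𝒪) MA p ∈ maximalIdeal A ^ (n + 1) := by
  obtain ⟨_, π', hart⟩ := exists_level_algebra πA n
  intro p hp
  have := le_ker_trHom_of_level h𝒟 hspan hleast πA MA hMA hπA hD n hart π'
    (Ideal.Quotient.mkₐ 𝒪 (maximalIdeal A ^ (n + 1))) Ideal.Quotient.mk_surjective
    (fun a ha => Ideal.Quotient.eq_zero_iff_mem.mpr ha) hp
  exact Ideal.Quotient.eq_zero_iff_mem.mp this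

include π hanti hc htr in
theorem exists_algHom_trace (h𝒟 : IsDeformationCondition 𝒪 𝒟)
    (hspan : Submodule.span (ResidueField 𝒪) (Set.range ρ₀) = ⊤)
    (hleast : ∀ n I, Adm 𝒟 ρ₀ I → RingHom.ker (trHom (𝒪 := 𝒪) ρ₀) ^ (n + 1) ≤ I → J n ≤ I)
    (πA : A →ₐ[𝒪] ResidueField 𝒪) (MA : GQ →* M2 A) (hMA : MatCont MA)
    (hπA : ∀ σ, (MA σ).map πA = ρ₀ σ) (hD : 𝒟 (toAdic MA hMA)) :
    ∃ φ : R →ₐ[𝒪] A, ∀ σ, φ (M σ).trace = (MA σ).trace := by
  have hψ := trHom_mem_pow h𝒟 hspan hleast πA MA hMA hπA hD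
  let g : ∀ n, R →ₐ[𝒪] A ⧸ maximalIdeal A ^ n := fun n =>
    ((Ideal.Quotient.factorₐ 𝒪 (Ideal.pow_le_pow_right n.le_succ)).comp
      (Ideal.Quotient.liftₐ (J n) ((Ideal.Quotient.mkₐ 𝒪 _).comp (trHom MA))
        fun p hp => Ideal.Quotient.eq_zero_iff_mem.mpr (hψ n p hp))).comp (Φ n)
  have hg : ∀ n r p, Φ n r = Ideal.Quotient.mk (J n) p →
      g n r = Ideal.Quotient.mk _ (trHom (𝒪 := 𝒪) MA p) := fun n r p h => by
    simp only [g, AlgHom.comp_apply, h]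
    rfl
  have hcompat : ∀ {a b : ℕ} (hle : a ≤ b),
      (Ideal.Quotient.factorPow (maximalIdeal A) hle).comp (g b : R →+* _) = (g a : R →+* _) := by
    intro a b hle
    refine RingHom.ext fun r => ?_
    obtain ⟨p, h1, h2⟩ := exists_common_rep hanti Φ hc hle r
    show Ideal.Quotient.factorPow _ hle (g b r) = g a r
    rw [hg b r p h1, hg a r p h2]
    rfl
  let φ' := IsAdicComplete.liftRingHom (maximalIdeal A) (fun n => (g n : R →+* _)) hcompat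
  let φ : R →ₐ[𝒪] A :=
    { φ' with
      commutes' := fun c => by
        refine sub_eq_zero.mp (IsHausdorff.haus (I := maximalIdeal A) inferInstance _ fun n => ?_)
        rw [SModEq.zero, smul_eq_mul, Ideal.mul_top, ← Ideal.Quotient.eq_zero_iff_mem, map_sub]
        show Ideal.Quotient.mk _ (φ' (algebraMap 𝒪 R c)) - _ = 0
        rw [IsAdicComplete.mk_liftRingHom, sub_eq_zero]
        exact (g n).commutes c }
  refine ⟨φ, fun σ => ?_⟩
  refine sub_eq_zero.mp (IsHausdorff.haus (I := maximalIdeal A) inferInstance _ fun n => ?_)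
  rw [SModEq.zero, smul_eq_mul, Ideal.mul_top, ← Ideal.Quotient.eq_zero_iff_mem, map_sub]
  show Ideal.Quotient.mk _ (φ' (M σ).trace) - _ = 0
  rw [IsAdicComplete.mk_liftRingHom, sub_eq_zero]
  show g n (M σ).trace = _
  rw [hg n _ (MvPolynomial.X σ) (htr n σ), trHom_X]

include π hanti hc hker htr in
/-- The universal property. -/
theorem existsUnique_hom (h𝒟 : IsDeformationCondition 𝒪 𝒟)
    (hspan : Submodule.span (ResidueField 𝒪) (Set.range ρ₀) = ⊤)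
    (hleast : ∀ n I, Adm 𝒟 ρ₀ I → RingHom.ker (trHom (𝒪 := 𝒪) ρ₀) ^ (n + 1) ≤ I → J n ≤ I)
    (hM : MatCont M) (hπ : ∀ σ, (M σ).map π = ρ₀ σ)
    (πA : A →ₐ[𝒪] ResidueField 𝒪) (ρA : GaloisRepAdic A) (MA : GQ →* M2 A) (hMA : MatCont MA)
    (hπA : ∀ σ, (MA σ).map πA = ρ₀ σ) (hD : 𝒟 (toAdic MA hMA))
    (hequiv : ρA.IsEquiv (toAdic MA hMA)) :
    ∃! φ : R →ₐ[𝒪] A, ∃ hφ : IsLocalHom (φ : R →+* A),
      ((toAdic M hM).baseChangeAlong (φ : R →+* A) hφ).IsEquiv ρA := by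
  obtain ⟨φ, hφtr⟩ := exists_algHom_trace π hanti Φ hc M htr h𝒟 hspan hleast πA MA hMA hπA hD
  have hloc := isLocalHom_of_res πA φ
  refine ⟨φ, ⟨hloc, ?_⟩, fun φ' hφ' => ?_⟩
  · have hres : ∀ σ, (mapRep (φ : R →+* A) M σ).map πA = ρ₀ σ := fun σ => by
      rw [← hπ σ, ← res_unique (πA.comp φ) π]; rfl
    obtain ⟨P, -, hP⟩ := Carayol.exists_conj_of_trace_eq πA ρ₀ hspan (mapRep (φ : R →+* A) M) MA
      hres hπA (fun σ => by rw [trace_mapRep]; exact hφtr σ)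
    obtain ⟨e1⟩ := isEquiv_baseChangeAlong_toAdic (φ : R →+* A) hloc M hM
    obtain ⟨e2⟩ := isEquiv_toAdic_of_conj (matCont_mapRep _ hloc hM) hMA P hP
    obtain ⟨e3⟩ := hequiv
    exact ⟨(e1.trans e2).trans e3.symm⟩
  · obtain ⟨hloc', ⟨e⟩⟩ := hφ'
    refine algHom_ext_of_trace π Φ hker M htr πA φ' φ fun σ => ?_
    obtain ⟨e1⟩ := isEquiv_baseChangeAlong_toAdic (φ' : R →+* A) hloc' M hM
    obtain ⟨e3⟩ := hequiv
    have := trace_eq_of_isEquiv_toAdic (hM := matCont_mapRep _ hloc' hM) (hM' := hMA)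
      ⟨(e1.symm.trans e).trans e3⟩ σ
    rw [trace_mapRep] at this
    exact this.trans (hφtr σ).symm

end FermatLib.Galois.Deform

end
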