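import Mathlib
import Fermat.Prelude.Def_GaloisRep_DeformationRingData
import Fermat.Prelude.Def_GaloisRep_DeformationCondition
import Fermat.Agent.Galois.Deform.Span
import Fermat.Agent.Galois.Deform.Tangent
import Fermat.Agent.Galois.Deform.Tower
import Fermat.Agent.Galois.Deform.Limit
import Fermat.Agent.Galois.Deform.RepLimit
import Fermat.Agent.Galois.Deform.Universal

/-!
# Existence of the universal deformation ring
-/

set_option autoImplicit false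

noncomputable section

open IsLocalRing GaloisRep Module

namespace FermatLib.Galois.Deform

variable {𝒪 : Type} [CommRing 𝒪] [IsLocalRing 𝒪] [Finite (ResidueField 𝒪)] {𝒟 : Cond 𝒪}
  {ρ₀ : GQ →* M2 (ResidueField 𝒪)}

theorem Adm.exists_pow_le {I : Ideal (TrPoly 𝒪)} (h : Adm 𝒟 ρ₀ I) :
    ∃ N, RingHom.ker (trHom (𝒪 := 𝒪) ρ₀) ^ N ≤ I := by
  obtain ⟨_, M, π, hart, hπ, -, htr⟩ := h
  obtain ⟨N, hN⟩ := (isArtinianRing_iff_isNilpotent_maximalIdeal (TrPoly 𝒪 ⧸ I)).mp hart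
  refine ⟨N, fun p hp => ?_⟩
  have hle : RingHom.ker (trHom (𝒪 := 𝒪) ρ₀) ≤
      (maximalIdeal (TrPoly 𝒪 ⧸ I)).comap (Ideal.Quotient.mk I) := fun x hx => by
    rw [Ideal.mem_comap, ← res_eq_zero_iff π]
    rw [← res_comp_mk ρ₀ hπ htr] at hx
    exact hx
  have h2 := Ideal.le_comap_pow _ _ (Ideal.pow_right_mono hle _ hp)
  rw [hN] at h2
  exact Ideal.Quotient.eq_zero_iff_mem.mp (Ideal.mem_bot.mp h2)

theorem adm_base (h𝒟 : IsDeformationCondition 𝒪 𝒟)
    (hspan : Submodule.span (ResidueField 𝒪) (Set.range ρ₀) = ⊤) (h : IsDef 𝒟 ρ₀) :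
    Adm 𝒟 ρ₀ (RingHom.ker (trHom (𝒪 := 𝒪) ρ₀)) :=
  adm_ker_trHom h𝒟 hspan inferInstance (AlgHom.id 𝒪 _) ρ₀ (fun σ => Matrix.ext fun _ _ => rfl) h

theorem isDef_rho0 (h𝒟 : IsDeformationCondition 𝒪 𝒟) (ρbar : ResidualGaloisRep (ResidueField 𝒪))
    (b₀ : Basis (Fin 2) (ResidueField 𝒪) ρbar.V)
    (hbar : 𝒟 (GaloisRepAdic.ofResidualGaloisRep ρbar)) : IsDef 𝒟 (rho0 ρbar b₀) :=
  ⟨matCont_matOf (GaloisRepAdic.ofResidualGaloisRep ρbar) b₀,
    h𝒟.of_isEquiv (isTestAlgebra_of_res (AlgHom.id 𝒪 (ResidueField 𝒪)) inferInstance)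
      (isEquiv_toAdic_matOf (GaloisRepAdic.ofResidualGaloisRep ρbar) b₀) hbar⟩

/-- Mazur's theorem: the universal deformation ring exists. -/
theorem nonempty_deformationRingData_of_absIrr (𝒪 : Type) [CommRing 𝒪] [IsDomain 𝒪]
    [IsDiscreteValuationRing 𝒪] [IsAdicComplete (IsLocalRing.maximalIdeal 𝒪) 𝒪]
    [Finite (IsLocalRing.ResidueField 𝒪)] (ρbar : ResidualGaloisRep (IsLocalRing.ResidueField 𝒪))
    (𝒟 : Cond 𝒪) (habs : ρbar.IsAbsolutelyIrreducible) (h𝒟 : IsDeformationCondition 𝒪 𝒟)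
    (hbar : 𝒟 (GaloisRepAdic.ofResidualGaloisRep ρbar)) (hfin : TangentFinite 𝒪 ρbar 𝒟) :
    Nonempty (DeformationRingData 𝒪 ρbar 𝒟) := by
  let b₀ : Basis (Fin 2) (ResidueField 𝒪) ρbar.V :=
    Module.finBasisOfFinrankEq _ _ ρbar.finrank_eq
  set ρ₀ := rho0 ρbar b₀
  have hspan : Submodule.span (ResidueField 𝒪) (Set.range ρ₀) = ⊤ :=
    Burnside.span_toMatrix_eq_top ρbar habs b₀
  set ε := trHom (𝒪 := 𝒪) ρ₀ with hε
  obtain ⟨r, x, J, hx, hJ, hJpow, hleast, hsurj⟩ :=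
    Tower.exists_tower ε (Adm 𝒟 ρ₀) (fun I hI => hI.finite) (fun I hI => hI.le_ker)
      (fun I hI => hI.exists_pow_le) (fun I J hI hJ => hI.inf h𝒟 hspan hJ)
      (fun I I' hI h h' => hI.mono h𝒟 h h') (adm_base h𝒟 hspan (isDef_rho0 h𝒟 ρbar b₀ hbar))
      (exists_bound_of_tangentFinite ρbar b₀ h𝒟 hfin)
  have hanti : ∀ n, J (n + 1) ≤ J n := fun n =>
    hleast (n + 1) _ (hJ n) ((Ideal.pow_le_pow_right (n + 1).le_succ).trans (hJpow n))
  have hsucc : ∀ n, J n ≤ J (n + 1) ⊔ RingHom.ker ε ^ (n + 1) := fun n =>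
    hleast n _ ((hJ (n + 1)).mono h𝒟 le_sup_left
      (sup_le (hJ (n + 1)).le_ker (Ideal.pow_le_self n.succ_ne_zero))) le_sup_right
  obtain ⟨R, _, _, _, _, _, π, Φ, hΦsurj, hc, hker⟩ :=
    Tower.exists_limitRing ε x hx J (fun n => (hJ n).le_ker) hJpow hanti hsucc hsurj
  have hdata := fun n => hJ n
  choose hloc Mn πn hart hπn hDn htrn using hdata
  obtain ⟨M, hM, hres, hD, htr⟩ := exists_repLimit (A := fun n => TrPoly 𝒪 ⧸ J n) h𝒟 hspan
    hart πn (fun n => Ideal.Quotient.factorₐ 𝒪 (hanti n))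
    (fun n => Ideal.Quotient.factor_surjective (hanti n)) Mn hπn hDn
    (fun n σ => by rw [htrn, htrn]; rfl) π Φ hΦsurj hc hker
  haveI := isLocalHom_algebraMap_of_res π
  refine ⟨{ R := R, residue_surjective := residue_surjective_of_res π, absIrr := habs,
            ρ := toAdic M hM, isOfType := hD, residual_isEquiv := ?_, universal := ?_ }⟩
  · refine residual_toAdic_isEquiv _ ρbar b₀ M hM fun σ => ?_
    ext i j
    rw [Matrix.map_apply, Matrix.map_apply, map_residue_eq_map_map π, ← Matrix.map_apply (f := π),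
      hres]
  · intro A _ _ _ _ _ _ hsurjA ρA hDA hresA
    obtain ⟨πA⟩ := exists_res (inferInstance : IsLocalHom (algebraMap 𝒪 A)) hsurjA
    obtain ⟨MA, hMA, hequiv, hmap⟩ := exists_matRep _ ρbar b₀ ρA hresA
    have hπA : ∀ σ, (MA σ).map πA = ρ₀ σ := fun σ => by
      ext i j
      refine RingHom.injective (ResidueField.map (algebraMap 𝒪 A)) ?_
      rw [Matrix.map_apply, ← map_residue_eq_map_map]
      exact congr_fun (congr_fun (hmap σ) i) j
    have hD' : 𝒟 (toAdic MA hMA) := by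
      have hloA : IsLocalHom (algebraMap 𝒪 A) := inferInstance
      rw [h𝒟.iff_forall_surjective hloA hsurjA]
      intro B _ _ _ hB q hq hqs
      obtain ⟨e⟩ := hequiv
      exact h𝒟.of_isEquiv hB ⟨e.baseChangeAlong _ hq⟩
        ((h𝒟.iff_forall_surjective hloA hsurjA ρA).mp hDA hB q hq hqs)
    exact existsUnique_hom π hanti Φ hc hker M (fun n σ => (htr n σ).trans (htrn n σ)) h𝒟 hspan
      hleast hM hres πA ρA MA hMA hπA hD' hequiv

end FermatLib.Galois.Deform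

end
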